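import Fermat.Agent.S24.Sigma
import Fermat.Prelude.Def_ModularCurve_HeckeModule
import Fermat.Prelude.Sol.S_ModularForm_heckeT_slash_eq_self_of_mem_Gamma0

/-!
# Project GAL, SUPPORT chain: interface definitions

`IsKummer N m χ x` : the class `x ∈ J₀(N)(Qbar)` is the class of `D` where `m D = div u`,
`u ∈ Qbar(X₀(N))`, and the analytic function attached to `u` is `h ^ m` where `h` is a meromorphic
function on the upper half plane transforming under `Γ₀(N)` by the character `χ`.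
-/

set_option autoImplicit false

namespace Fermat.Agent.GAL

open Fermat.Agent.S24 CongruenceSubgroup ModularCurve AlgebraicCurve
open scoped MatrixGroups
open Matrix.SpecialLinearGroup (mapGL)
open P2MW.S_ModularForm_heckeT_slash_eq_self_of_mem_Gamma0.ModularForm.HeckeSlashInvariance

noncomputable section

/-- `h` transforms under `Γ₀(N)` by the character `χ` (recall `actMer g h = h ∘ g⁻¹`). -/
def HasChar (N : ℕ) (χ : Gamma0 N →* ℂˣ) (h : Mer) : Prop :=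
  ∀ g : Gamma0 N, actMer (g : SL(2, ℤ)) h = algebraMap ℂ Mer (χ g : ℂ) * h

/-- The Kummer relation between characters of `Γ₀(N)` and `m`-torsion classes. -/
def IsKummer (N m : ℕ) (χ : Gamma0 N →* ℂˣ) (x : JZero N) : Prop :=
  ∃ (D : Divisor.degZero (K := Kb) (F := FN N)) (u : FN N) (h : Mer), u ≠ 0 ∧
    (∀ v : Place Kb (FN N), v.ord u = (m : ℤ) * (D : Divisor Kb (FN N)) v) ∧
    ThetaMer N u = h ^ m ∧ HasChar N χ h ∧ x = Pic0.mk D

/-- elements of `Γ₀(N)` which are `± 1`, elliptic or parabolic -/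
def IsSmall {N : ℕ} (γ : Gamma0 N) : Prop :=
  |(γ : SL(2, ℤ)) 0 0 + (γ : SL(2, ℤ)) 1 1| ≤ 2

/-- a character is good if it is trivial on `± 1`, elliptic and parabolic elements -/
def IsGoodChar {N : ℕ} (χ : Gamma0 N →* ℂˣ) : Prop := ∀ γ : Gamma0 N, IsSmall γ → χ γ = 1

/-- `χ'` is the Hecke transfer `T_ℓ χ` of the character `χ`. -/
def IsTransferChar {N : ℕ} (ℓ : ℕ) [NeZero ℓ] (χ χ' : Gamma0 N →* ℂˣ) : Prop :=
  ∀ (γ : Gamma0 N) (σ : Equiv.Perm (OnePoint (ZMod ℓ))) (d : OnePoint (ZMod ℓ) → Gamma0 N),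
    (∀ x, heckeRep ℓ x * mapGL ℝ (γ : SL(2, ℤ)) = mapGL ℝ (d x : SL(2, ℤ)) * heckeRep ℓ (σ x)) →
      χ' γ = ∏ x, χ (d x)

/-- additive characters `Γ₀(N) → ℤ/m` killing `± 1`, elliptic and parabolic elements -/
def GoodHom (N m : ℕ) : AddSubgroup (Additive (Gamma0 N) →+ ZMod m) where
  carrier := {c | ∀ γ : Gamma0 N, IsSmall γ → c (Additive.ofMul γ) = 0}
  zero_mem' := fun _ _ => rfl
  add_mem' := fun {a b} ha hb γ hγ => by
    rw [AddMonoidHom.add_apply, ha γ hγ, hb γ hγ, add_zero]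
  neg_mem' := fun {a} ha γ hγ => by
    rw [AddMonoidHom.neg_apply, ha γ hγ, neg_zero]

/-- `c'` is the Hecke transfer `T_ℓ c` of the additive character `c`. -/
def IsTransfer {N m : ℕ} (ℓ : ℕ) [NeZero ℓ] (c c' : Additive (Gamma0 N) →+ ZMod m) : Prop :=
  ∀ (γ : Gamma0 N) (σ : Equiv.Perm (OnePoint (ZMod ℓ))) (d : OnePoint (ZMod ℓ) → Gamma0 N),
    (∀ x, heckeRep ℓ x * mapGL ℝ (γ : SL(2, ℤ)) = mapGL ℝ (d x : SL(2, ℤ)) * heckeRep ℓ (σ x)) →
      c' (Additive.ofMul γ) = ∑ x, c (Additive.ofMul (d x))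

/-- the `μ_m(ℂ)`-valued character `γ ↦ exp (2 π i c(γ) / m)` -/
def chiOf {N m : ℕ} [NeZero m] (c : Additive (Gamma0 N) →+ ZMod m) : Gamma0 N →* ℂˣ :=
  MonoidHom.toHomUnits
    { toFun := fun γ => ZMod.stdAddChar (c (Additive.ofMul γ))
      map_one' := by simp
      map_mul' := fun a b => by simp [AddChar.map_add_eq_mul] }

theorem coe_chiOf {N m : ℕ} [NeZero m] (c : Additive (Gamma0 N) →+ ZMod m) (γ : Gamma0 N) :
    (chiOf c γ : ℂ) = ZMod.stdAddChar (c (Additive.ofMul γ)) := rfl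

theorem chiOf_zero {N m : ℕ} [NeZero m] : chiOf (0 : Additive (Gamma0 N) →+ ZMod m) = 1 := by
  ext γ
  simp [coe_chiOf]

theorem chiOf_add {N m : ℕ} [NeZero m] (c c' : Additive (Gamma0 N) →+ ZMod m) :
    chiOf (c + c') = chiOf c * chiOf c' := by
  ext γ
  simp [coe_chiOf, AddChar.map_add_eq_mul]

theorem chiOf_injective {N m : ℕ} [NeZero m] :
    Function.Injective (chiOf : (Additive (Gamma0 N) →+ ZMod m) → _) := by
  intro c c' h
  ext γ
  have h1 := congrArg (fun χ : Gamma0 N →* ℂˣ => ((χ (Additive.toMul γ) : ℂˣ) : ℂ)) h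
  simp only [coe_chiOf] at h1
  exact ZMod.injective_stdAddChar h1

theorem chiOf_pow {N m : ℕ} [NeZero m] (c : Additive (Gamma0 N) →+ ZMod m) (γ : Gamma0 N) :
    chiOf c γ ^ m = 1 := by
  ext
  rw [Units.val_pow_eq_pow_val, coe_chiOf, ← AddChar.map_nsmul_eq_pow]
  simp

theorem isGoodChar_chiOf {N m : ℕ} [NeZero m] (c : GoodHom N m) :
    IsGoodChar (chiOf (c : Additive (Gamma0 N) →+ ZMod m)) := by
  intro γ hγ
  ext
  rw [coe_chiOf, c.2 γ hγ]
  simp

theorem IsTransfer.chiOf {N m : ℕ} [NeZero m] {ℓ : ℕ} [NeZero ℓ]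
    {c c' : Additive (Gamma0 N) →+ ZMod m} (h : IsTransfer ℓ c c') :
    IsTransferChar ℓ (chiOf c) (chiOf c') := by
  intro γ σ d hd
  ext
  rw [coe_chiOf, h γ σ d hd, Units.coe_prod]
  exact map_sum (ZMod.stdAddChar (N := m)).toAddMonoidHom _ _

end

end Fermat.Agent.GAL
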