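import Fermat.Agent.GAL.Sup.Defs
import Fermat.Agent.GAL.HeckeInputs
import Fermat.Agent.GAL.RootMer
import Fermat.Agent.S24.Conj

/-! # SUPPORT chain: the elementary leaves K1c, K2a, K2b -/

set_option autoImplicit false

namespace Fermat.Agent.GAL

open Fermat.Agent.S24 CongruenceSubgroup ModularCurve AlgebraicCurve
open scoped MatrixGroups

/-- a function without zeros is constant -/
theorem mem_range_of_ord_eq_zero {K F : Type*} [Field K] [Field F] [Algebra K F] [IsAlgClosed K]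
    [CharZero K] {y : F} (hy : IsFiniteParam K y) (f : F) (h : ∀ v : Place K F, v.ord f = 0) :
    f ∈ Set.range (algebraMap K F) := by
  by_contra hf
  have h1 := hy.of_not_mem_range hf
  have h2 := h1.sum_zeros
  have h3 : ∑ v ∈ h1.finite_zeros.toFinset, v.ord f = 0 :=
    Finset.sum_eq_zero fun v _ => h v
  rw [h3] at h2
  have := h1.finite
  have h4 : 0 < Module.finrank (IntermediateField.adjoin K {f}) F := Module.finrank_pos
  omega

theorem degZero_smul_cancel {K F : Type*} [Field K] [Field F] [Algebra K F] {m : ℤ} (hm : m ≠ 0)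
    {D : Divisor K F} (h : Divisor.degree (m • D) = 0) : Divisor.degree D = 0 := by
  rw [map_zsmul, smul_eq_mul] at h
  exact (mul_eq_zero.mp h).resolve_left hm

/-- **K1c**: a function whose divisor is divisible by `m` gives a degree zero divisor. -/
theorem exists_degZero_of_dvd_ord' (N m : ℕ) [NeZero N] [NeZero m] (u : FN N) (hu : u ≠ 0)
    (h : ∀ v : Place Kb (FN N), (m : ℤ) ∣ v.ord u) :
    ∃ D : Divisor.degZero (K := Kb) (F := FN N),
      ∀ v : Place Kb (FN N), v.ord u = (m : ℤ) * (D : Divisor Kb (FN N)) v := by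
  have hy := HeckeInputs.isFiniteParam_jF N
  obtain ⟨D0, hD0⟩ := hy.exists_divisor u
  have hdeg := hy.degree_eq_zero_of_principal u hu D0 hD0
  have hm : (m : ℤ) ≠ 0 := by exact_mod_cast NeZero.ne m
  set D : Divisor Kb (FN N) := Finsupp.mapRange (fun n : ℤ => n / (m : ℤ)) (by simp) D0 with hD
  have hDv : ∀ v, v.ord u = (m : ℤ) * D v := by
    intro v
    rw [hD, Finsupp.mapRange_apply, hD0 v, Int.mul_ediv_cancel' (h v)]
  have hmD : (m : ℤ) • D = D0 := by
    ext v
    rw [Finsupp.smul_apply, smul_eq_mul, ← hDv v, hD0 v]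
  refine ⟨⟨D, ?_⟩, hDv⟩
  rw [Divisor.mem_degZero]
  apply degZero_smul_cancel hm
  rw [hmD, hdeg]

variable {N m : ℕ} [NeZero N] [NeZero m]

theorem HasChar.mul {χ χ' : Gamma0 N →* ℂˣ} {h h' : Mer} (hh : HasChar N χ h)
    (hh' : HasChar N χ' h') : HasChar N (χ * χ') (h * h') := by
  intro g
  rw [map_mul, hh g, hh' g, MonoidHom.mul_apply, Units.val_mul, map_mul]
  ring

/-- **K2a** -/
theorem IsKummer.mul' {χ χ' : Gamma0 N →* ℂˣ} {x x' : JZero N} (h : IsKummer N m χ x)
    (h' : IsKummer N m χ' x') : IsKummer N m (χ * χ') (x + x') := by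
  obtain ⟨D, u, f, hu, hD, huf, hf, rfl⟩ := h
  obtain ⟨D', u', f', hu', hD', huf', hf', rfl⟩ := h'
  refine ⟨D + D', u * u', f * f', mul_ne_zero hu hu', fun v => ?_, ?_, hf.mul hf', rfl⟩
  · rw [v.ord_mul hu hu', hD v, hD' v, AddSubgroup.coe_add, Finsupp.add_apply]
    ring
  · rw [map_mul, huf, huf', mul_pow]

theorem actMer_ThetaMer (g : Gamma0 N) (u : FN N) :
    actMer (g : SL(2, ℤ)) (ThetaMer N u) = ThetaMer N u := by
  rw [← sigma0_apply, sigma0_of_mem jfun_isSLInvariant g.2]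

/-- **K2b** -/
theorem IsKummer.eq_one_of_zero' {χ : Gamma0 N →* ℂˣ} (h : IsKummer N m χ 0) : χ = 1 := by
  obtain ⟨D, u, f, hu, hD, huf, hf, h0⟩ := h
  have hy := HeckeInputs.isFiniteParam_jF N
  have hm : m ≠ 0 := NeZero.ne m
  -- `D` is principal
  have h1 : D ∈ (Divisor.principal (K := Kb) (F := FN N)).addSubgroupOf
      (Divisor.degZero (K := Kb) (F := FN N)) :=
    (QuotientAddGroup.eq_zero_iff D).mp h0.symm
  rw [AddSubgroup.mem_addSubgroupOf] at h1
  obtain ⟨w, hw, hDw⟩ := h1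
  -- `u / w ^ m` is constant
  have h2 : ∀ v : Place Kb (FN N), v.ord (u * (w ^ m)⁻¹) = 0 := by
    intro v
    rw [v.ord_mul hu (inv_ne_zero (pow_ne_zero _ hw)), v.ord_inv, hD v, hDw v,
      ← zpow_natCast, v.ord_zpow]
    ring
  obtain ⟨a, ha⟩ := mem_range_of_ord_eq_zero hy _ h2
  have huw : u = algebraMap Kb (FN N) a * w ^ m := by
    rw [ha]
    field_simp
  have hf0 : f ≠ 0 := by
    rintro rfl
    rw [zero_pow hm] at huf
    exact hu ((map_eq_zero (ThetaMer N)).mp huf)
  obtain ⟨b, hb⟩ := IsAlgClosed.exists_pow_nat_eq a (Nat.pos_of_ne_zero hm)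
  set t : FN N := algebraMap Kb (FN N) b * w with ht
  have hut : u = t ^ m := by
    rw [huw, ht, mul_pow, ← map_pow, hb]
  have ht0 : ThetaMer N t ≠ 0 := by
    intro h0
    rw [map_eq_zero] at h0
    rw [hut, h0, zero_pow hm] at hu
    exact hu rfl
  have h3 : (f / ThetaMer N t) ^ m = 1 := by
    rw [div_pow, ← huf, hut, map_pow, div_self (pow_ne_zero _ ht0)]
  obtain ⟨ζ, -, hζ⟩ := exists_complex_of_pow_eq_one m hm h3
  have hft : f = algebraMap ℂ Mer ζ * ThetaMer N t := by
    rw [← hζ]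
    field_simp
  ext g
  have h4 := hf g
  have h5 : actMer (g : SL(2, ℤ)) f = f := by
    rw [hft, map_mul, AlgEquiv.commutes, actMer_ThetaMer]
  rw [h5] at h4
  have h6 : algebraMap ℂ Mer (χ g : ℂ) = algebraMap ℂ Mer 1 := by
    rw [map_one]
    exact (mul_right_cancel₀ hf0 (by rw [one_mul]; exact h4)).symm
  simpa using (FaithfulSMul.algebraMap_injective ℂ Mer) h6

end Fermat.Agent.GAL
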