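import Fermat.Agent.S24.CP
import Fermat.Agent.GAL.AD.Basic
import Fermat.Agent.GAL.MerDiv

/-!
# (LAG), holomorphic form

A holomorphic `Γ₀(N)`-invariant function on `ℍ`, all of whose `SL₂(ℤ)`-translates have moderate
growth at `i∞`, belongs to the function field `ℂ(j, j_N) = θ_ℂ(F_ℂ)`.
Proof: Lagrange interpolation against `j_N`.
-/

set_option autoImplicit false

open UpperHalfPlane hiding I
open Function ModularCurve CongruenceSubgroup Polynomial
open scoped Manifold MatrixGroups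
open Fermat.Agent.S24 Fermat.Agent.GAL.AD

namespace Fermat.Agent.GAL

noncomputable section

/-- `θ_ℂ` as a `ℂ`-algebra homomorphism. -/
def thetaC (N : ℕ) : FK ℂ N →ₐ[ℂ] Mer :=
  { thetaK (RingHom.id ℂ) N with
    commutes' := fun a => thetaK_algebraMap (RingHom.id ℂ) N a }

theorem thetaC_apply (N : ℕ) (f : FK ℂ N) : thetaC N f = thetaK (RingHom.id ℂ) N f := rfl

theorem thetaC_jK (N d : ℕ) [NeZero d] (hd : d ∣ N) :
    thetaC N (jK ℂ N d hd) = algebraMap Hol Mer (jdHol d) := thetaK_jK _ N d hd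

/-- evaluation of the Lagrange numerator at a node -/
theorem eval_lagrange {ι A : Type*} [Fintype ι] [DecidableEq ι] [CommRing A] (U H : ι → A)
    (b : ι) :
    (∑ c : ι, C (H c) * ∏ c' ∈ Finset.univ.erase c, (X - C (U c'))).eval (U b)
      = H b * ∏ c' ∈ Finset.univ.erase b, (U b - U c') := by
  rw [eval_finsetSum, Finset.sum_eq_single b]
  · simp [eval_prod]
  · intro c _ hc
    rw [eval_mul, eval_prod,
      Finset.prod_eq_zero (i := b) (Finset.mem_erase.2 ⟨hc.symm, Finset.mem_univ _⟩) (by simp),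
      mul_zero]
  · intro h
    exact absurd (Finset.mem_univ b) h

theorem lagHol_eval_mem_of_coeff_mem {A : Type*} [Field A] (E : Subfield A) (p : A[X])
    (hp : ∀ i, p.coeff i ∈ E) {x : A} (hx : x ∈ E) : p.eval x ∈ E := by
  rw [eval_eq_sum_range]
  exact E.sum_mem fun i _ => E.mul_mem (hp i) (E.pow_mem hx i)

variable (N : ℕ) [NeZero N]

theorem conj_eq_actHol (G : Hol) (c : S28.Q N) :
    S28.conj N (G : ℍ → ℂ) c = (actHol (Quotient.out c) G : ℍ → ℂ) := by
  funext τ
  rw [actHol_apply]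
  rfl

theorem conj_mem_holGrowth (G : Hol) (hgr : ∀ x : SL(2, ℤ), ModGrowth (actHol x G : ℍ → ℂ))
    (c : S28.Q N) : S28.conj N (G : ℍ → ℂ) c ∈ holGrowth := by
  rw [conj_eq_actHol]
  exact ⟨(actHol (Quotient.out c) G).2, hgr _⟩

theorem holGrowthToMer_conj (G : Hol) (hgr : ∀ x : SL(2, ℤ), ModGrowth (actHol x G : ℍ → ℂ))
    (c : S28.Q N) :
    holGrowthToMer ⟨S28.conj N (G : ℍ → ℂ) c, conj_mem_holGrowth N G hgr c⟩
      = algebraMap Hol Mer (actHol (Quotient.out c) G) := by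
  have : (⟨S28.conj N (G : ℍ → ℂ) c, conj_mem_holGrowth N G hgr c⟩ : holGrowth)
      = ⟨(actHol (Quotient.out c) G : ℍ → ℂ), ⟨(actHol (Quotient.out c) G).2, hgr _⟩⟩ :=
    Subtype.ext (conj_eq_actHol N G c)
  rw [this]
  rfl

theorem modGrowth_actHol_jdHol (x : SL(2, ℤ)) : ModGrowth (actHol x (jdHol N) : ℍ → ℂ) :=
  modGrowth_actHol N x (Algebra.subset_adjoin ⟨N, inferInstance, dvd_rfl, rfl⟩)

theorem isGamma0Inv_of_actHol {G : Hol} (hinv : ∀ γ ∈ Gamma0 N, actHol γ G = G) :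
    S28.IsGamma0Inv N (G : ℍ → ℂ) := by
  intro γ hγ τ
  have h := congrFun (congrArg Subtype.val (hinv γ⁻¹ (inv_mem hγ))) τ
  rw [actHol_apply, inv_inv] at h
  exact h

/-- the conjugates, in `Mer` -/
def cj (G : Hol) (c : S28.Q N) : Mer := algebraMap Hol Mer (actHol (Quotient.out c) G)

theorem cj_base {G : Hol} (hinv : ∀ γ ∈ Gamma0 N, actHol γ G = G) :
    cj N G (S28.Q.base N) = algebraMap Hol Mer G := by
  obtain ⟨γ, hγ⟩ := QuotientGroup.mk_out_eq_mul (Gamma0 N) (1 : SL(2, ℤ))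
  have : Quotient.out (S28.Q.base N) = (γ : SL(2, ℤ)) := by
    rw [← one_mul (γ : SL(2, ℤ)), ← hγ]
    rfl
  rw [cj, this, hinv γ γ.2]

theorem actHol_jdHol_self {γ : SL(2, ℤ)} (hγ : γ ∈ Gamma0 N) : actHol γ (jdHol N) = jdHol N :=
  actHol_jdHol_of_mem jfun_isSLInvariant dvd_rfl hγ

theorem cj_jdHol_injective : Injective (cj N (jdHol N)) := by
  intro c c' h
  have h1 := IsFractionRing.injective Hol Mer h
  rw [← Quotient.out_eq c, ← Quotient.out_eq c']
  refine QuotientGroup.eq.2 ?_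
  have h2 := (jd_smul_eq_iff N (Quotient.out c)⁻¹ (Quotient.out c')⁻¹).1 fun τ => by
    have := congrFun (congrArg Subtype.val h1) τ
    rw [actHol_apply, actHol_apply] at this
    exact this
  rwa [inv_inv] at h2

/-- the value of the Lagrange numerator lies in the function field -/
theorem lagrange_value_mem (G : Hol) (hinv : ∀ γ ∈ Gamma0 N, actHol γ G = G)
    (hgr : ∀ x : SL(2, ℤ), ModGrowth (actHol x G : ℍ → ℂ)) :
    cj N G (S28.Q.base N) * ∏ c' ∈ Finset.univ.erase (S28.Q.base N),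
        (cj N (jdHol N) (S28.Q.base N) - cj N (jdHol N) c') ∈ (thetaC N).fieldRange.toSubfield := by
  have hu : S28.IsGamma0Inv N (jdHol N : ℍ → ℂ) :=
    isGamma0Inv_of_actHol N fun γ hγ => actHol_jdHol_self N hγ
  have hh := isGamma0Inv_of_actHol N hinv
  have huS := conj_mem_holGrowth N (jdHol N) (modGrowth_actHol_jdHol N)
  have hhS := conj_mem_holGrowth N G hgr
  have key := S28.lagrange_coeff_of holGrowth holGrowthToMer jHolGrowth
    exists_aeval_of_invariant hu hh huS hhS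
  simp only [holGrowthToMer_conj N G hgr, holGrowthToMer_conj N (jdHol N) (modGrowth_actHol_jdHol N)]
    at key
  rw [← eval_lagrange (cj N (jdHol N)) (cj N G) (S28.Q.base N)]
  apply lagHol_eval_mem_of_coeff_mem
  · intro i
    obtain ⟨P, hP⟩ := key i
    have hJ : holGrowthToMer jHolGrowth = thetaC N (jK1 ℂ N) := (thetaC_jK N 1 (one_dvd N)).symm
    rw [hJ, Polynomial.aeval_algHom_apply] at hP
    exact ⟨_, hP.symm⟩
  · rw [cj_base N fun γ hγ => actHol_jdHol_self N hγ]
    exact ⟨_, thetaC_jK N N dvd_rfl⟩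

/-- **(LAG), holomorphic form.** -/
theorem lagHol (G : Hol) (hinv : ∀ γ ∈ Gamma0 N, actHol γ G = G)
    (hgr : ∀ x : SL(2, ℤ), ModGrowth (actHol x G : ℍ → ℂ)) :
    ∃ w : FK ℂ N, thetaC N w = algebraMap Hol Mer G := by
  set D : Mer := ∏ c' ∈ Finset.univ.erase (S28.Q.base N),
        (cj N (jdHol N) (S28.Q.base N) - cj N (jdHol N) c') with hD
  have hD0 : D ≠ 0 := by
    rw [hD, Finset.prod_ne_zero_iff]
    intro c' hc'
    rw [sub_ne_zero]
    exact fun h => (Finset.mem_erase.1 hc').1 (cj_jdHol_injective N h).symm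
  have h1 := lagrange_value_mem N G hinv hgr
  have h2 := lagrange_value_mem N 1 (fun γ _ => map_one _) (fun x => by
    rw [map_one]; exact ModGrowth.one)
  rw [← hD, cj_base N hinv] at h1
  rw [← hD, cj_base N (fun γ _ => map_one _), map_one, one_mul] at h2
  have h3 := (thetaC N).fieldRange.toSubfield.div_mem h1 h2
  rw [mul_div_cancel_right₀ _ hD0] at h3
  exact h3

omit [NeZero N] in
/-- a root of a function of moderate growth has moderate growth -/
theorem modGrowth_of_pow {B H : ℍ → ℂ} {m : ℕ} (hm : m ≠ 0) (h : ∀ τ, B τ ^ m = H τ)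
    (hH : ModGrowth H) : ModGrowth B := by
  obtain ⟨M, hM⟩ := hH
  refine ⟨M, ?_⟩
  have hM' := isBoundedAtImInfty_pow_mul_mono (Nat.le_mul_of_pos_right M (Nat.pos_of_ne_zero hm)) hM
  rw [isBoundedAtImInfty_iff] at hM' ⊢
  obtain ⟨C, A, hC⟩ := hM'
  refine ⟨max 1 C, A, fun z hz => ?_⟩
  by_contra hlt
  rw [not_le, max_lt_iff] at hlt
  have h1 := le_self_pow₀ hlt.1.le hm
  have h2 : ‖ModularForm.discriminant z ^ M * B z‖ ^ m
      = ‖ModularForm.discriminant z ^ (M * m) * H z‖ := by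
    rw [← norm_pow, mul_pow, h z, pow_mul]
  rw [h2] at h1
  exact absurd (h1.trans (hC z hz)) (not_le.2 hlt.2)

/-- **(LAG) for roots**: a `Γ₀(N)`-invariant element of `Mer`, a power of which is holomorphic with
all translates of moderate growth, lies in the function field. -/
theorem lag_of_pow {m : ℕ} (hm : m ≠ 0) (G : Mer) (hinv : ∀ γ ∈ Gamma0 N, actMer γ G = G)
    (H : Hol) (hGH : G ^ m = algebraMap Hol Mer H)
    (hgr : ∀ x : SL(2, ℤ), ModGrowth (actHol x H : ℍ → ℂ)) :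
    ∃ w : FK ℂ N, thetaC N w = G := by
  obtain ⟨B, rfl⟩ := exists_hol_of_pow hm G H hGH
  have hBH : B ^ m = H := by
    apply IsFractionRing.injective Hol Mer
    rw [map_pow, hGH]
  refine lagHol N B (fun γ hγ => ?_) (fun x => ?_)
  · apply IsFractionRing.injective Hol Mer
    rw [← actMer_algebraMap, hinv γ hγ]
  · refine modGrowth_of_pow hm (fun τ => ?_) (hgr x)
    rw [← hBH, map_pow]
    rfl

end

end Fermat.Agent.GAL
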