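import Mathlib
import Fermat.Prelude.Def_ModularCurve_LaurentCoeff

/-!
# LEMMA R: roots of Laurent series with coefficients in a subfield

If `z ∈ C((q))`, `z ≠ 0`, and `z ^ m` has coefficients in (the image of) a subfield `L`, `m ≠ 0` in
`C`, then `z = c · w` with `c ∈ Cˣ` and `w ∈ L((q))`.
-/

set_option autoImplicit false

namespace Fermat.Agent.GAL.LaurentRoot

open PowerSeries ModularCurve

variable {C : Type*} [Field C]

/-- power series with coefficients in a subfield -/
def coeffSubring (R : Subfield C) : Subring (PowerSeries C) where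
  carrier := {f | ∀ n, coeff n f ∈ R}
  mul_mem' := by
    intro f g hf hg n
    rw [coeff_mul]
    exact R.sum_mem fun p _ => R.mul_mem (hf _) (hg _)
  one_mem' := by
    intro n
    rw [coeff_one]
    split_ifs
    exacts [R.one_mem, R.zero_mem]
  add_mem' := fun {f g} hf hg n => by rw [map_add]; exact R.add_mem (hf n) (hg n)
  zero_mem' := fun n => by rw [map_zero]; exact R.zero_mem
  neg_mem' := fun {f} hf n => by rw [map_neg]; exact R.neg_mem (hf n)

theorem coeff_mem_of_pow (R : Subfield C) (m : ℕ) (hm : (m : C) ≠ 0) (A : PowerSeries C)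
    (hA0 : constantCoeff A = 1) (hA : ∀ n, coeff n (A ^ m) ∈ R) : ∀ n, coeff n A ∈ R := by
  intro n
  induction n using Nat.strong_induction_on with
  | _ k ih =>
    rcases Nat.eq_zero_or_pos k with rfl | hk
    · rw [coeff_zero_eq_constantCoeff_apply, hA0]; exact R.one_mem
    · set T : PowerSeries C := ((trunc k A : Polynomial C) : PowerSeries C) with hT
      set B : PowerSeries C := PowerSeries.mk fun i => coeff (i + k) A with hB
      have hdecomp : A = T + X ^ k * B := by
        ext i
        rw [map_add, Polynomial.coeff_coe, coeff_trunc, coeff_X_pow_mul']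
        split_ifs with h1 h2 h2
        · omega
        · simp
        · simp [hB, Nat.sub_add_cancel h2]
        · omega
      have hTmem : T ∈ coeffSubring R := by
        intro i
        rw [hT, Polynomial.coeff_coe, coeff_trunc]
        split_ifs with h
        · exact ih i h
        · exact R.zero_mem
      have hT0 : constantCoeff T = 1 := by
        rw [← coeff_zero_eq_constantCoeff_apply, hT, Polynomial.coeff_coe, coeff_trunc, if_pos hk,
          coeff_zero_eq_constantCoeff_apply, hA0]
      obtain ⟨K, hK⟩ := Polynomial.powAddExpansion T (X ^ k * B) m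
      have h1 : coeff k (A ^ m) = coeff k (T ^ m) + m * coeff k A := by
        conv_lhs => rw [hdecomp, hK]
        rw [map_add, map_add]
        have e1 : coeff k ((m : PowerSeries C) * T ^ (m - 1) * (X ^ k * B)) = m * coeff k A := by
          rw [show (m : PowerSeries C) * T ^ (m - 1) * (X ^ k * B)
            = X ^ k * ((m : PowerSeries C) * T ^ (m - 1) * B) by ring]
          rw [coeff_X_pow_mul', if_pos le_rfl, Nat.sub_self, coeff_zero_eq_constantCoeff_apply,
            map_mul, map_mul, map_pow, hT0, one_pow, mul_one, map_natCast,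
            ← coeff_zero_eq_constantCoeff_apply, hB, coeff_mk, zero_add]
        have e2 : coeff k (K * (X ^ k * B) ^ 2) = 0 := by
          rw [show K * (X ^ k * B) ^ 2 = X ^ (2 * k) * (K * B ^ 2) by ring]
          rw [coeff_X_pow_mul', if_neg (by omega)]
        rw [e1, e2, add_zero]
      have h2 : (m : C) * coeff k A ∈ R := by
        have : (m : C) * coeff k A = coeff k (A ^ m) - coeff k (T ^ m) := by rw [h1]; ring
        rw [this]
        exact R.sub_mem (hA k) ((coeffSubring R).pow_mem hTmem m k)
      have h3 : (m : C) ∈ R := natCast_mem R m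
      have : coeff k A = (m : C)⁻¹ * ((m : C) * coeff k A) := by field_simp
      rw [this]
      exact R.mul_mem (R.inv_mem h3) h2

theorem coeffMap_coe {L : Type*} [Field L] (ι : L →+* C) (A : PowerSeries L) :
    coeffMap ι (A : LaurentSeries L) = ((PowerSeries.map ι A : PowerSeries C) : LaurentSeries C) := by
  ext i
  rw [coeffMap_coeff, PowerSeries.coeff_coe, PowerSeries.coeff_coe]
  split_ifs
  · exact map_zero ι
  · rw [PowerSeries.coeff_map]

/-- **LEMMA R.** -/
theorem exists_const_mul_coeffMap {L : Type*} [Field L] (ι : L →+* C) (m : ℕ) (hm : (m : C) ≠ 0)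
    (z : LaurentSeries C) (hz0 : z ≠ 0) (y : LaurentSeries L) (hz : z ^ m = coeffMap ι y) :
    ∃ (c : C) (w : LaurentSeries L), c ≠ 0 ∧ z = HahnSeries.C c * coeffMap ι w := by
  set n := z.order with hn
  set P := z.powerSeriesPart with hP
  set c := z.coeff n with hc
  have hc0 : c ≠ 0 := fun h => hz0 (HahnSeries.coeff_order_eq_zero.1 h)
  have hP0 : constantCoeff P = c := by
    rw [← coeff_zero_eq_constantCoeff_apply, hP, LaurentSeries.powerSeriesPart_coeff]
    simp [hc, hn]
  set A : PowerSeries C := PowerSeries.C c⁻¹ * P with hA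
  have hA0 : constantCoeff A = 1 := by
    rw [hA, map_mul, hP0, constantCoeff_C, inv_mul_cancel₀ hc0]
  have hPA : P = PowerSeries.C c * A := by
    rw [hA, ← mul_assoc, ← map_mul, mul_inv_cancel₀ hc0, map_one, one_mul]
  have hzA : z = HahnSeries.single n 1 * (HahnSeries.C c * (A : LaurentSeries C)) := by
    conv_lhs => rw [← LaurentSeries.single_order_mul_powerSeriesPart z]
    rw [← hP, hPA, ← hn]
    simp [HahnSeries.ofPowerSeries_C]
  have hzm : z ^ m = HahnSeries.single ((m : ℤ) * n) (c ^ m) * ((A ^ m : PowerSeries C) : LaurentSeries C) := by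
    conv_lhs => rw [hzA]
    rw [mul_pow, mul_pow, HahnSeries.single_pow, one_pow, ← map_pow, ← mul_assoc, HahnSeries.C_apply,
      HahnSeries.single_mul_single, add_zero, one_mul, nsmul_eq_mul]
    simp
  set R : Subfield C := ι.fieldRange with hR
  have hcoef : ∀ i : ℕ, (z ^ m).coeff ((i : ℤ) + (m : ℤ) * n) = c ^ m * coeff i (A ^ m) := by
    intro i
    rw [hzm, HahnSeries.coeff_single_mul_add, PowerSeries.coeff_coe, if_neg (by omega)]
    simp
  have hmem : ∀ k : ℤ, (z ^ m).coeff k ∈ R := by
    intro k
    rw [hz, coeffMap_coeff]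
    exact ⟨_, rfl⟩
  have hcm : c ^ m ∈ R := by
    have := hcoef 0
    rw [coeff_zero_eq_constantCoeff_apply, map_pow, hA0, one_pow, mul_one] at this
    rw [← this]
    exact hmem _
  have hAm : ∀ i, coeff i (A ^ m) ∈ R := by
    intro i
    have : coeff i (A ^ m) = (c ^ m)⁻¹ * (z ^ m).coeff ((i : ℤ) + (m : ℤ) * n) := by
      rw [hcoef i, ← mul_assoc, inv_mul_cancel₀ (pow_ne_zero m hc0), one_mul]
    rw [this]
    exact R.mul_mem (R.inv_mem hcm) (hmem _)
  have hAR := coeff_mem_of_pow R m hm A hA0 hAm
  choose a ha using hAR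
  refine ⟨c, HahnSeries.single n 1 * ((PowerSeries.mk a : PowerSeries L) : LaurentSeries L), hc0, ?_⟩
  rw [map_mul, coeffMap_single, map_one, coeffMap_coe]
  have : PowerSeries.map ι (PowerSeries.mk a) = A := by
    ext i
    rw [PowerSeries.coeff_map, coeff_mk, ha]
  rw [this]
  conv_lhs => rw [hzA]
  ring

end Fermat.Agent.GAL.LaurentRoot
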