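import Fermat.Agent.GAL.Sup.K1b
import Fermat.Agent.GAL.Sup.K2ab
import Fermat.Agent.GAL.Sup.LagHol
import Fermat.Agent.GAL.Sup.LaurentRoot
import Fermat.Agent.GAL.DescentBaseChange

/-!
# SUPPORT chain, leaf K2c: uniqueness of Kummer classes

If `g ∈ Mer` is `Γ₀(N)`-invariant and `g ^ m = θ(f)`, `f ∈ F_N = Qbar(X₀(N))`, then
`f = a w ^ m` with `a ∈ Qbar`, `w ∈ F_N`.
-/

set_option autoImplicit false

open UpperHalfPlane hiding I
open Function ModularCurve CongruenceSubgroup AlgebraicCurve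
open scoped Manifold MatrixGroups
open Fermat.Agent.S24 Fermat.Agent.GAL.AD

namespace Fermat.Agent.GAL

noncomputable section

/-- base change `Qbar → ℂ` of the function field -/
def bcC (N : ℕ) : FN N →+* FK ℂ N :=
  ((coeffMap iotaK.toRingHom).comp (FKf Kb N).val.toRingHom).codRestrict (FKf ℂ N)
    (fun f => Descent.coeffMap_mem_laurentBaseChange' iotaK.toRingHom _ f.2)

theorem coe_bcC (N : ℕ) (f : FN N) :
    ((bcC N f : FK ℂ N) : LaurentSeries ℂ) = coeffMap iotaK.toRingHom (f : LaurentSeries Kb) := rfl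

theorem thetaC_bcC (N : ℕ) (f : FN N) : thetaC N (bcC N f) = ThetaMer N f := by
  rw [← thetaK_iotaK, thetaC_apply, thetaK_apply, thetaK_apply]
  have : thetaPer (RingHom.id ℂ) N (bcC N f) = thetaPer iotaK.toRingHom N f := by
    rw [thetaPer_eq_iff, toLaurent_thetaPer, coe_bcC]
    exact coeffMap_id _
  rw [this]

/-- polynomials in the `j_d` are mapped to polynomials in the `j_d` -/
theorem exists_hol_of_mem_adjoin (N : ℕ) {a : FN N} (ha : a ∈ Algebra.adjoin Kb (genSetF N)) :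
    ∃ H ∈ Algebra.adjoin ℂ (genSetHol N), ThetaMer N a = algebraMap Hol Mer H := by
  induction ha using Algebra.adjoin_induction with
  | mem x hx =>
    obtain ⟨d, hd0, hd, rfl⟩ := hx
    exact ⟨jdHol d, Algebra.subset_adjoin ⟨d, hd0, hd, rfl⟩, ThetaMer_jBar N d hd⟩
  | algebraMap c =>
    refine ⟨algebraMap ℂ Hol (iotaK c), Subalgebra.algebraMap_mem _ _, ?_⟩
    rw [ThetaMer_algebraMap, ← IsScalarTower.algebraMap_apply]
  | add x y _ _ hx hy =>
    obtain ⟨H, hH, h1⟩ := hx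
    obtain ⟨H', hH', h2⟩ := hy
    exact ⟨H + H', add_mem hH hH', by rw [RingHom.map_add, RingHom.map_add, h1, h2]⟩
  | mul x y _ _ hx hy =>
    obtain ⟨H, hH, h1⟩ := hx
    obtain ⟨H', hH', h2⟩ := hy
    exact ⟨H * H', mul_mem hH hH', by rw [RingHom.map_mul, RingHom.map_mul, h1, h2]⟩

variable {N m : ℕ} [NeZero N] [NeZero m]

/-- an invariant root of an element of the function field lies in the function field over `ℂ` -/
theorem exists_thetaC_eq_of_pow (f : FN N) (g : Mer) (hg : ∀ γ ∈ Gamma0 N, actMer γ g = g)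
    (hgf : g ^ m = ThetaMer N f) : ∃ w : FK ℂ N, thetaC N w = g := by
  have hm : m ≠ 0 := NeZero.ne m
  have hf : f ∈ IntermediateField.adjoin Kb (genSetF N) := by
    rw [adjoin_genSetF_eq_top]; trivial
  obtain ⟨a, ha, b, hb, rfl⟩ := IntermediateField.mem_adjoin_iff_div.1 hf
  rcases eq_or_ne b 0 with rfl | hb0
  · rw [div_zero, map_zero] at hgf
    exact ⟨0, by rw [map_zero, pow_eq_zero_iff hm |>.1 hgf]⟩
  have hθb : ThetaMer N b ≠ 0 := (map_ne_zero _).2 hb0
  obtain ⟨H, hH, hHe⟩ := exists_hol_of_mem_adjoin N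
    (mul_mem ha (pow_mem hb (m - 1)) : a * b ^ (m - 1) ∈ Algebra.adjoin Kb (genSetF N))
  obtain ⟨w, hw⟩ := lag_of_pow N hm (g * ThetaMer N b)
    (fun γ hγ => by rw [map_mul, hg γ hγ, actMer_ThetaMer ⟨γ, hγ⟩]) H
    (by
      rw [← hHe, mul_pow, hgf, map_div₀, map_mul, map_pow]
      obtain ⟨k, rfl⟩ : ∃ k, m = k + 1 := Nat.exists_eq_succ_of_ne_zero hm
      rw [Nat.add_sub_cancel, pow_succ]
      field_simp)
    (fun x => modGrowth_actHol N x hH)
  refine ⟨w / bcC N b, ?_⟩
  rw [map_div₀, hw, thetaC_bcC, mul_div_cancel_right₀ _ hθb]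

/-- an element of the function field with an invariant analytic `m`-th root is, up to a constant,
an `m`-th power in the function field -/
theorem exists_const_mul_pow (f : FN N) (hf : f ≠ 0) (g : Mer)
    (hg : ∀ γ ∈ Gamma0 N, actMer γ g = g) (hgf : g ^ m = ThetaMer N f) :
    ∃ (a : Kb) (w : FN N), w ≠ 0 ∧ f = algebraMap Kb (FN N) a * w ^ m := by
  have hm : m ≠ 0 := NeZero.ne m
  obtain ⟨W, hW⟩ := exists_thetaC_eq_of_pow f g hg hgf
  have h1 : W ^ m = bcC N f := by
    have hinj : Injective (thetaC N) := (thetaC N).toRingHom.injective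
    exact hinj (by rw [map_pow, hW, hgf, thetaC_bcC])
  have h2 : (W : LaurentSeries ℂ) ^ m = coeffMap iotaK.toRingHom (f : LaurentSeries Kb) := by
    rw [← coe_bcC, ← h1]
    rfl
  have hW0 : (W : LaurentSeries ℂ) ≠ 0 := by
    intro h
    rw [h, zero_pow hm] at h2
    apply hf
    apply Subtype.ext
    exact (map_eq_zero (coeffMap iotaK.toRingHom)).1 h2.symm
  obtain ⟨c, w0, hc, hWc⟩ := LaurentRoot.exists_const_mul_coeffMap iotaK.toRingHom m
    (by exact_mod_cast hm) (W : LaurentSeries ℂ) hW0 (f : LaurentSeries Kb) h2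
  have hw0 : coeffMap iotaK.toRingHom w0 = HahnSeries.C c⁻¹ * (W : LaurentSeries ℂ) := by
    rw [hWc, ← mul_assoc, ← map_mul, inv_mul_cancel₀ hc, map_one, one_mul]
  have hw0mem : w0 ∈ FKf Kb N := by
    apply Descent.mem_laurentBaseChange_of_coeffMap_mem iotaK.toRingHom
    rw [hw0]
    refine mul_mem ?_ W.2
    have : (HahnSeries.C c⁻¹ : LaurentSeries ℂ) = algebraMap ℂ (LaurentSeries ℂ) c⁻¹ := by
      rw [algebraMap_laurentSeries_eq_single, HahnSeries.C_apply]
    rw [this]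
    exact (FKf ℂ N).algebraMap_mem _
  have hw00 : w0 ≠ 0 := by
    rintro rfl
    rw [map_zero, mul_zero] at hWc
    exact hW0 hWc
  set r : LaurentSeries Kb := (f : LaurentSeries Kb) / w0 ^ m with hr
  have hrC : coeffMap iotaK.toRingHom r = HahnSeries.C (c ^ m) := by
    rw [hr, map_div₀, map_pow, ← h2, hWc, mul_pow, ← map_pow,
      mul_div_cancel_right₀ _ (pow_ne_zero m ((map_ne_zero _).2 hw00))]
  have hr' : r = algebraMap Kb (LaurentSeries Kb) (r.coeff 0) := by
    rw [algebraMap_laurentSeries_eq_single]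
    ext k
    rcases eq_or_ne k 0 with rfl | hk
    · rw [HahnSeries.coeff_single_same]
    · rw [HahnSeries.coeff_single_of_ne hk]
      have := congrArg (fun z : LaurentSeries ℂ => z.coeff k) hrC
      simp only [coeffMap_coeff, HahnSeries.C_apply, HahnSeries.coeff_single_of_ne hk] at this
      exact (map_eq_zero iotaK.toRingHom).1 this
  refine ⟨r.coeff 0, ⟨w0, hw0mem⟩, fun h => hw00 (congrArg Subtype.val h), Subtype.ext ?_⟩
  show (f : LaurentSeries Kb) = algebraMap Kb (LaurentSeries Kb) (r.coeff 0) * w0 ^ m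
  rw [← hr', hr, div_mul_cancel₀ _ (pow_ne_zero m hw00)]

/-- **K2c**: uniqueness of Kummer classes. -/
theorem isKummer_unique {χ : Gamma0 N →* ℂˣ} {x x' : JZero N} (h : IsKummer N m χ x)
    (h' : IsKummer N m χ x') : x = x' := by
  have hm : m ≠ 0 := NeZero.ne m
  obtain ⟨D, u, f, hu, hD, huf, hf, rfl⟩ := h
  obtain ⟨D', u', f', hu', hD', huf', hf', rfl⟩ := h'
  have hf'0 : f' ≠ 0 := by
    rintro rfl
    rw [zero_pow hm] at huf'
    exact hu' ((map_eq_zero (ThetaMer N)).mp huf')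
  obtain ⟨a, w, hw, huw⟩ := exists_const_mul_pow (m := m) (u / u') (div_ne_zero hu hu') (f / f')
    (fun γ hγ => by
      have h1 := hf ⟨γ, hγ⟩
      have h2 := hf' ⟨γ, hγ⟩
      simp only at h1 h2
      rw [map_div₀, h1, h2]
      have hχ : algebraMap ℂ Mer ((χ ⟨γ, hγ⟩ : ℂˣ) : ℂ) ≠ 0 := by
        rw [Ne, map_eq_zero]
        exact Units.ne_zero _
      field_simp)
    (by rw [div_pow, ← huf, ← huf', map_div₀])
  have ha : algebraMap Kb (FN N) a ≠ 0 := by
    intro h0
    rw [h0, zero_mul] at huw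
    exact div_ne_zero hu hu' huw
  have hord : ∀ v : Place Kb (FN N),
      (D : Divisor Kb (FN N)) v - (D' : Divisor Kb (FN N)) v = v.ord w := by
    intro v
    have h1 : v.ord (u / u') = (m : ℤ) * v.ord w := by
      rw [huw, v.ord_mul ha (pow_ne_zero m hw), Place.ord_algebraMap, zero_add, ← zpow_natCast,
        v.ord_zpow]
    rw [div_eq_mul_inv, v.ord_mul hu (inv_ne_zero hu'), v.ord_inv, hD v, hD' v] at h1
    have hm' : (m : ℤ) ≠ 0 := by exact_mod_cast hm
    apply mul_left_cancel₀ hm'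
    rw [← h1]
    ring
  symm
  refine QuotientAddGroup.eq.2 ?_
  rw [AddSubgroup.mem_addSubgroupOf]
  refine ⟨w, hw, fun v => ?_⟩
  rw [← hord v]
  simp
  ring

end

end Fermat.Agent.GAL
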