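import Fermat.Agent.GAL.Sup.Defs
import Fermat.Agent.GAL.Sup.K2ab
import Fermat.Agent.GAL.Sup.K2c

/-! # SUPPORT chain, leaf K2: additivity, injectivity, uniqueness of Kummer classes -/

set_option autoImplicit false

namespace Fermat.Agent.GAL

open Fermat.Agent.S24 CongruenceSubgroup ModularCurve AlgebraicCurve
open scoped MatrixGroups

variable {N m : ℕ} [NeZero N] [NeZero m]

/-- **K2a** -/
theorem IsKummer.mul {χ χ' : Gamma0 N →* ℂˣ} {x x' : JZero N} (h : IsKummer N m χ x)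
    (h' : IsKummer N m χ' x') : IsKummer N m (χ * χ') (x + x') :=
  h.mul' h'

/-- **K2b**: (`D = div w`, so `u / w ^ m` has trivial divisor, so is a constant `= c ^ m`; then
`h = ζ θ(c w)` is `Γ₀(N)`-invariant.) -/
theorem IsKummer.eq_one_of_zero {χ : Gamma0 N →* ℂˣ} (h : IsKummer N m χ 0) : χ = 1 :=
  h.eq_one_of_zero'

/-- **K2c**: (`h / h'` is `Γ₀(N)`-invariant and algebraic over `ℂ(j)`, so it is in `θ_ℂ(F_ℂ)` (LAG);
its `q`-expansion `w` has `w ^ m ∈ Qbar((q))`, so `w = c w₀`, `w₀ ∈ F_ℂ ∩ Qbar((q)) = F_Qbar` (D3);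
then `D - D' = div w₀`.) -/
theorem IsKummer.unique {χ : Gamma0 N →* ℂˣ} {x x' : JZero N} (h : IsKummer N m χ x)
    (h' : IsKummer N m χ x') : x = x' :=
  isKummer_unique h h'

end Fermat.Agent.GAL
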