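import Fermat.Agent.GAL.Sup.Defs
import Fermat.Agent.GAL.HeckeEquiv.Kummer
import Fermat.Agent.GAL.HeckeInputs

/-! # SUPPORT chain, leaf K3: Hecke equivariance of Kummer classes -/

set_option autoImplicit false
set_option linter.style.haveILetI false

namespace Fermat.Agent.GAL

open Fermat.Agent.S24 CongruenceSubgroup ModularCurve AlgebraicCurve
open scoped MatrixGroups

variable {N m : ℕ} [NeZero N] [NeZero m]

/-- **K3**: `x = [D]`, `m D = div u`, `θ u = h ^ m`. Then `T_ℓ x = [α_* β^* D]`,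
`m α_* β^* D = div u'`, `u' = Norm_α (β u)`, `θ u' = ∏_x (θ u) ∘ heckeRep ℓ x = (h') ^ m`,
`h' = ∏_x h ∘ heckeRep ℓ x`. -/
theorem IsKummer.hecke (ℓ : Nat.Primes) (hℓN : ¬ (ℓ : ℕ) ∣ N) {χ χ' : Gamma0 N →* ℂˣ}
    {x : JZero N} (h : IsKummer N m χ x)
    (ht : haveI : NeZero (ℓ : ℕ) := ⟨ℓ.2.ne_zero⟩; IsTransferChar (ℓ : ℕ) χ χ') :
    IsKummer N m χ' (heckeOperatorBar N ℓ x) := by
  haveI : Fact (ℓ : ℕ).Prime := ⟨ℓ.2⟩
  haveI : NeZero (ℓ : ℕ) := ⟨ℓ.2.ne_zero⟩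
  obtain ⟨D, u, h, hu, hD, hθ, hχ, rfl⟩ := h
  rw [heckeOperatorBar_apply, HeckeInputs.heckeOperatorAlong_eq' N ℓ]
  refine ⟨Pic0.degZeroCorrespondence (heckeBetaBar Kb N ℓ) (heckeAlphaBar Kb N ℓ)
      (HeckeInputs.heckeBetaBarIntegral N ℓ) (HeckeInputs.heckeAlphaBarIntegral N ℓ)
      (HeckeInputs.fundamentalIdentityAlong_beta N ℓ) D,
    (letI := algebraAlong (heckeAlphaBar Kb N ℓ);
      Algebra.norm (FN N) (heckeBetaBar Kb N ℓ u)),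
    HeckeEquiv.heckeProd ℓ h, ?_, ?_, ?_, ?_, rfl⟩
  · exact HeckeEquiv.norm_along_ne_zero _ _ (HeckeInputs.finiteAlong_alpha N ℓ) hu
  · intro v
    exact HeckeEquiv.ord_norm_eq_mul_correspondence _ _ (HeckeInputs.heckeBetaBarIntegral N ℓ)
      (HeckeInputs.heckeAlphaBarIntegral N ℓ) (HeckeInputs.finiteAlong_alpha N ℓ)
      (HeckeInputs.normFormulaAlong_alpha N ℓ) (m : ℤ) D u hu hD v
  · rw [HeckeEquiv.ThetaMer_norm_beta hℓN, hθ]
    exact HeckeEquiv.heckeProd_pow h m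
  · exact HeckeEquiv.hasChar_heckeProd hℓN hχ ht

end Fermat.Agent.GAL
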