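import Fermat.Agent.GAL.Sup.K1
import Fermat.Agent.GAL.Sup.K2
import Fermat.Agent.GAL.Sup.K3

/-! # SUPPORT chain: the Kummer homomorphism `(SUP_m)` -/

set_option autoImplicit false

namespace Fermat.Agent.GAL

open Fermat.Agent.S24 CongruenceSubgroup ModularCurve AlgebraicCurve
open scoped MatrixGroups

/-- **(SUP_m)**: an injective, Hecke equivariant homomorphism from the good additive characters
`Γ₀(N) → ℤ/m` to `J₀(N)(Qbar)`. -/
theorem exists_kummerHom (N m : ℕ) [NeZero N] [NeZero m] :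
    ∃ κ : GoodHom N m →+ JZero N, Function.Injective κ ∧
      (∀ c : GoodHom N m, IsKummer N m (chiOf (c : Additive (Gamma0 N) →+ ZMod m)) (κ c)) ∧
      ∀ (ℓ : Nat.Primes), ¬ (ℓ : ℕ) ∣ N → ∀ c c' : GoodHom N m,
        (haveI : NeZero (ℓ : ℕ) := ⟨ℓ.2.ne_zero⟩
         IsTransfer (ℓ : ℕ) (c : Additive (Gamma0 N) →+ ZMod m) c') →
          heckeOperatorBar N ℓ (κ c) = κ c' := by
  have hex : ∀ c : GoodHom N m, ∃ x : JZero N,
      IsKummer N m (chiOf (c : Additive (Gamma0 N) →+ ZMod m)) x := fun c =>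
    exists_isKummer N m _ (chiOf_pow _) (isGoodChar_chiOf c)
  choose k hk using hex
  have hadd : ∀ c c', k (c + c') = k c + k c' := by
    intro c c'
    have h1 := (hk c).mul (hk c')
    rw [← chiOf_add] at h1
    exact (hk (c + c')).unique h1
  refine ⟨AddMonoidHom.mk' k hadd, ?_, hk, ?_⟩
  · rw [injective_iff_map_eq_zero]
    intro c hc
    have h1 : IsKummer N m (chiOf (c : Additive (Gamma0 N) →+ ZMod m)) 0 := by
      have := hk c
      rwa [show k c = 0 from hc] at this
    have h2 := h1.eq_one_of_zero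
    rw [← chiOf_zero (m := m)] at h2
    exact Subtype.ext (chiOf_injective h2)
  · intro ℓ hℓN c c' ht
    have : NeZero (ℓ : ℕ) := ⟨ℓ.2.ne_zero⟩
    exact ((hk c).hecke ℓ hℓN ht.chiOf).unique (hk c')

end Fermat.Agent.GAL
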