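import Fermat.Agent.GAL.Sup.QEPK
import Fermat.Agent.GAL.Sup.Defs
import Fermat.Agent.GAL.EisChar

/-!
# SUPPORT chain, leaf K1a-1

For a good character `χ` of `Γ₀(N)` of exponent `m` the holomorphic function
`h₀ = E_{12, χ⁻¹} / Δ` transforms by `χ`, is `1`-periodic with a `q`-expansion `y`, and `h₀ ^ m`
is (the analytic function attached to) an element `f` of the function field over `ℂ`, with
`q`-expansion `y ^ m`.
-/

set_option autoImplicit false

namespace Fermat.Agent.GAL.EisField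

open Fermat.Agent.S24 Fermat.Agent.RED ModularCurve CongruenceSubgroup UpperHalfPlane ModularForm
open scoped MatrixGroups Manifold

noncomputable section

local notation "Δ" => ModularForm.discriminant

variable {N : ℕ}

theorem T_mem : ModularGroup.T ∈ Gamma0 N := by
  rw [Gamma0_mem, ModularGroup.coe_T]
  simp

theorem neg_one_mem : (-1 : SL(2, ℤ)) ∈ Gamma0 N := by
  rw [Gamma0_mem]
  simp

theorem isSmall_T : IsSmall (⟨ModularGroup.T, T_mem⟩ : Gamma0 N) := by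
  unfold IsSmall
  simp [ModularGroup.coe_T]

theorem isSmall_neg_one : IsSmall (⟨-1, neg_one_mem⟩ : Gamma0 N) := by
  unfold IsSmall
  simp

variable (χ : Gamma0 N →* ℂˣ)

/-- The Eisenstein series `E_{12, χ⁻¹}`. -/
def eisFun : ℍ → ℂ := EisChar.eis χ⁻¹ 12

variable {χ}

theorem hT_inv (hgood : IsGoodChar χ) :
    ∃ h : ModularGroup.T ∈ Gamma0 N, χ⁻¹ ⟨ModularGroup.T, h⟩ = 1 :=
  ⟨T_mem, by rw [MonoidHom.inv_apply, hgood _ isSmall_T, inv_one]⟩

theorem hneg_inv (hgood : IsGoodChar χ) :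
    ∃ h : (-1 : SL(2, ℤ)) ∈ Gamma0 N, χ⁻¹ ⟨-1, h⟩ = 1 :=
  ⟨neg_one_mem, by rw [MonoidHom.inv_apply, hgood _ isSmall_neg_one, inv_one]⟩

theorem hn_inv {m : ℕ} (hm : m ≠ 0) (hχ : ∀ g, χ g ^ m = 1) (g : Gamma0 N) :
    ‖((χ⁻¹ g : ℂˣ) : ℂ)‖ = 1 :=
  EisChar.norm_eq_one_of_pow hm (fun g => by rw [MonoidHom.inv_apply, inv_pow, hχ, inv_one]) g

theorem mdiff_eisFun {m : ℕ} (hm : m ≠ 0) (hχ : ∀ g, χ g ^ m = 1) : MDiff (eisFun χ) :=
  EisChar.mdiff_eis (hn_inv hm hχ) (by norm_num)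

theorem eisFun_smul (hgood : IsGoodChar χ) (g : Gamma0 N) (z : ℍ) :
    eisFun χ ((g : SL(2, ℤ)) • z)
      = ((χ g)⁻¹ : ℂˣ) * denom (g : SL(2, ℤ)) z ^ (12 : ℤ) * eisFun χ z :=
  EisChar.eis_smul (EisChar.hU_of_T (hT_inv hgood)) 12 g z

theorem eisFun_mem_HolPer {m : ℕ} (hm : m ≠ 0) (hχ : ∀ g, χ g ^ m = 1) (hgood : IsGoodChar χ) :
    eisFun χ ∈ HolPer 1 := by
  rw [mem_HolPer_iff]
  refine ⟨mdiff_eisFun hm hχ, fun τ => ?_, ?_⟩
  · have h := eisFun_smul hgood ⟨ModularGroup.T, T_mem⟩ τ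
    rw [hgood _ isSmall_T] at h
    have h1 : ((ModularGroup.T : SL(2, ℤ)) • τ) = ((1 : ℕ) : ℝ) +ᵥ τ := by
      rw [modular_T_smul]; simp
    have h2 : denom (ModularGroup.T : SL(2, ℤ)) τ = 1 := by
      simp [denom, ModularGroup.coe_T]
    simp only at h
    rw [h1, h2] at h
    simpa using h
  · have := EisChar.isBoundedAtImInfty_eis_slash (χ := χ⁻¹) (k := 12) (hn_inv hm hχ)
      (by norm_num) 1
    rwa [SlashAction.slash_one] at this

variable (χ) in
/-- The function `E_{12, χ⁻¹} / Δ`. -/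
def rootFun : ℍ → ℂ := eisFun χ / Δ

theorem mdiff_rootFun {m : ℕ} (hm : m ≠ 0) (hχ : ∀ g, χ g ^ m = 1) : MDiff (rootFun χ) :=
  (mdiff_eisFun hm hχ).div discriminant_mem_HolPer_one.1 discriminant_ne_zero

theorem rootFun_smul (hgood : IsGoodChar χ) (g : Gamma0 N) (z : ℍ) :
    rootFun χ ((g : SL(2, ℤ)) • z) = ((χ g)⁻¹ : ℂˣ) * rootFun χ z := by
  unfold rootFun
  rw [Pi.div_apply, Pi.div_apply, eisFun_smul hgood, Fermat.Agent.Common.JPoly.discriminant_smul]
  have h1 : denom (g : SL(2, ℤ)) z ^ (12 : ℤ) ≠ 0 := zpow_ne_zero _ (denom_ne_zero _ z)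
  have h2 := discriminant_ne_zero z
  field_simp

/-- `Δ · (h₀ ∘ g)` is `E ∣[12] g`. -/
theorem discriminant_mul_rootFun_smul (g : SL(2, ℤ)) (z : ℍ) :
    Δ z * rootFun χ (g • z) = (eisFun χ ∣[(12 : ℤ)] g) z := by
  unfold rootFun
  rw [Pi.div_apply, Fermat.Agent.Common.JPoly.discriminant_smul, SL_slash_apply]
  have h1 : denom g z ≠ 0 := denom_ne_zero _ z
  have h2 := discriminant_ne_zero z
  rw [zpow_neg]
  field_simp

section Main

variable {m : ℕ} (hm : m ≠ 0) (hχ : ∀ g, χ g ^ m = 1)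

/-- `h₀ = E_{12, χ⁻¹} / Δ` as an element of `Hol`. -/
def rootHol : Hol := ⟨rootFun χ, mdiff_rootFun hm hχ⟩

@[simp] theorem coe_rootHol : (rootHol hm hχ : ℍ → ℂ) = rootFun χ := rfl

theorem actHol_rootHol (hgood : IsGoodChar χ) (g : Gamma0 N) :
    actHol (g : SL(2, ℤ)) (rootHol hm hχ) = algebraMap ℂ Hol (χ g : ℂ) * rootHol hm hχ := by
  apply Subtype.ext
  funext z
  rw [actHol_apply, coe_rootHol]
  have h := rootFun_smul hgood g⁻¹ z
  rw [map_inv, inv_inv, Subgroup.coe_inv] at h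
  rw [h]
  rfl

theorem hasChar_rootHol (hgood : IsGoodChar χ) :
    HasChar N χ (algebraMap Hol Mer (rootHol hm hχ)) := by
  intro g
  rw [actMer_algebraMap, actHol_rootHol hm hχ hgood, map_mul,
    ← IsScalarTower.algebraMap_apply ℂ Hol Mer]

theorem rootHol_ne_zero (hgood : IsGoodChar χ) : rootHol hm hχ ≠ 0 := by
  obtain ⟨z, hz⟩ := EisChar.exists_eis_ne_zero (χ := χ⁻¹) (k := 12) (hn_inv hm hχ)
    (EisChar.hU_of_T (hT_inv hgood)) (hneg_inv hgood) (by norm_num) (by decide)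
  intro h
  have h1 := congrFun (congrArg Subtype.val h) z
  rw [coe_rootHol] at h1
  have h2 : rootFun χ z = 0 := h1
  unfold rootFun at h2
  rw [Pi.div_apply, div_eq_zero_iff] at h2
  rcases h2 with h2 | h2
  · exact hz h2
  · exact discriminant_ne_zero z h2

theorem rootHol_pow_mem_RN (hgood : IsGoodChar χ) : rootHol hm hχ ^ m ∈ CPAlt.RN N := by
  refine ⟨fun γ hγ => ?_, fun g => ⟨m, ?_⟩⟩
  · rw [map_pow, actHol_rootHol hm hχ hgood ⟨γ, hγ⟩, mul_pow, ← map_pow]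
    have := congrArg (fun u : ℂˣ => (u : ℂ)) (hχ ⟨γ, hγ⟩)
    simp only [Units.val_pow_eq_pow_val, Units.val_one] at this
    rw [this, map_one, one_mul]
  · have h1 := EisChar.isBoundedAtImInfty_pow
      (EisChar.isBoundedAtImInfty_eis_slash (χ := χ⁻¹) (k := 12) (hn_inv hm hχ) (by norm_num) g⁻¹) m
    refine h1.congr' (Filter.Eventually.of_forall fun τ => ?_) Filter.EventuallyEq.rfl
    rw [map_pow]
    show _ = Δ τ ^ m * ((actHol g (rootHol hm hχ) : ℍ → ℂ) τ) ^ m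
    rw [actHol_apply, coe_rootHol, ← mul_pow, discriminant_mul_rootFun_smul]
    rfl

/-- `h₀` as a fraction of `1`-periodic functions. -/
def rootPer (hgood : IsGoodChar χ) : MerPer 1 :=
  algebraMap (HolPer 1) (MerPer 1) ⟨eisFun χ, eisFun_mem_HolPer hm hχ hgood⟩ /
    algebraMap (HolPer 1) (MerPer 1) ⟨Δ, discriminant_mem_HolPer_one⟩

theorem toMer_rootPer (hgood : IsGoodChar χ) :
    toMer 1 (rootPer hm hχ hgood) = algebraMap Hol Mer (rootHol hm hχ) := by
  unfold rootPer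
  rw [toMer_div]
  have hne : algebraMap Hol Mer (inclHol 1 ⟨Δ, discriminant_mem_HolPer_one⟩) ≠ 0 := by
    rw [Ne, map_eq_zero_iff _ (IsFractionRing.injective Hol Mer)]
    intro h
    have h1 := congrFun (congrArg Subtype.val h) UpperHalfPlane.I
    exact discriminant_ne_zero _ h1
  rw [div_eq_iff hne, ← map_mul]
  congr 1
  apply Subtype.ext
  funext z
  show eisFun χ z = rootFun χ z * Δ z
  unfold rootFun
  rw [Pi.div_apply, div_mul_cancel₀ _ (discriminant_ne_zero z)]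

/-- The `q`-expansion of `h₀`. -/
def rootSeries (hgood : IsGoodChar χ) : LaurentSeries ℂ := toLaurent 1 (rootPer hm hχ hgood)

theorem rootSeries_ne_zero (hgood : IsGoodChar χ) : rootSeries hm hχ hgood ≠ 0 := by
  unfold rootSeries
  rw [Ne, map_eq_zero_iff _ (toLaurent_injective 1)]
  intro h
  have h1 := toMer_rootPer hm hχ hgood
  rw [h, map_zero] at h1
  exact rootHol_ne_zero hm hχ hgood
    ((map_eq_zero_iff _ (IsFractionRing.injective Hol Mer)).mp h1.symm)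

variable [NeZero N]

theorem rootSeries_pow_mem (hgood : IsGoodChar χ) :
    rootSeries hm hχ hgood ^ m ∈ AD.FKf ℂ N :=
  mem_FKf_of_mem_RN (RingHom.id ℂ) N (rootHol hm hχ ^ m) (rootHol_pow_mem_RN hm hχ hgood)
    (rootPer hm hχ hgood ^ m) (by rw [map_pow, map_pow, toMer_rootPer])
    _ (by rw [coeffMap_id, map_pow]; rfl)

/-- The element `f` of the function field over `ℂ` with `θ(f) = h₀ ^ m`. -/
def rootField (hgood : IsGoodChar χ) : AD.FK ℂ N :=
  ⟨rootSeries hm hχ hgood ^ m, rootSeries_pow_mem hm hχ hgood⟩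

@[simp] theorem coe_rootField (hgood : IsGoodChar χ) :
    ((rootField hm hχ hgood : AD.FK ℂ N) : LaurentSeries ℂ) = rootSeries hm hχ hgood ^ m := rfl

theorem thetaK_rootField (hgood : IsGoodChar χ) :
    AD.thetaK (RingHom.id ℂ) N (rootField hm hχ hgood) = algebraMap Hol Mer (rootHol hm hχ) ^ m := by
  rw [← map_pow]
  exact thetaK_eq_of_mem_RN (RingHom.id ℂ) N (rootHol hm hχ ^ m) (rootHol_pow_mem_RN hm hχ hgood)
    (rootPer hm hχ hgood ^ m) (by rw [map_pow, map_pow, toMer_rootPer])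
    _ (by rw [coeffMap_id, map_pow]; rfl)

theorem rootField_ne_zero (hgood : IsGoodChar χ) : (rootField hm hχ hgood : AD.FK ℂ N) ≠ 0 := by
  intro h
  have h1 := congrArg Subtype.val h
  exact pow_ne_zero m (rootSeries_ne_zero hm hχ hgood) h1

end Main

end

end Fermat.Agent.GAL.EisField

namespace Fermat.Agent.GAL

open Fermat.Agent.S24 CongruenceSubgroup

/-- **K1a-1.** For a good character `χ` of exponent `m` there are a holomorphic `h₀ ≠ 0`
transforming by `χ`, a fraction `U` of `1`-periodic functions representing it, and an element `f`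
of the function field over `ℂ` with `θ(f) = h₀ ^ m` whose `q`-expansion is `y ^ m`,
`y = toLaurent 1 U`. -/
theorem exists_eis_root (N m : ℕ) [NeZero N] [NeZero m] (χ : Gamma0 N →* ℂˣ)
    (hχ : ∀ g, χ g ^ m = 1) (hgood : IsGoodChar χ) :
    ∃ (h0 : Hol) (U : MerPer 1) (f : AD.FK ℂ N), h0 ≠ 0 ∧ f ≠ 0 ∧
      HasChar N χ (algebraMap Hol Mer h0) ∧ toMer 1 U = algebraMap Hol Mer h0 ∧
      AD.thetaK (RingHom.id ℂ) N f = algebraMap Hol Mer h0 ^ m ∧
      (f : LaurentSeries ℂ) = toLaurent 1 U ^ m :=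
  have hm := NeZero.ne m
  ⟨EisField.rootHol hm hχ, EisField.rootPer hm hχ hgood, EisField.rootField hm hχ hgood,
    EisField.rootHol_ne_zero hm hχ hgood, EisField.rootField_ne_zero hm hχ hgood,
    EisField.hasChar_rootHol hm hχ hgood, EisField.toMer_rootPer hm hχ hgood,
    EisField.thetaK_rootField hm hχ hgood, rfl⟩

end Fermat.Agent.GAL
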