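import Fermat.Agent.RED.FF.LSpace
import Fermat.Agent.GAL.DescentEchelon
import Fermat.Prelude.Def_ModularCurve_ArithmeticGalois

/-!
# SUPPORT chain, leaf K1a-3: the space `V = y • L(⌊div f / m⌋ + M (j)_∞)`

`K` algebraically closed of characteristic zero, `F = laurentBaseChange K F₀`, `jj : F` a finite
parameter with rational coefficients, `f : F`, `f ≠ 0`, whose poles are among the poles of `jj`,
`y ∈ K((q))` with `y ^ m = f`.  Then there is a finite dimensional `K`-subspace `V` of `y • F`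
containing `y` and stable under all `σ` such that `σ f ∈ f • (F^*)^m`.  With the echelon lemma:
there is `w ≠ 0` in `F` such that `y * w` is fixed by all those `σ`.
-/

set_option autoImplicit false

namespace Fermat.Agent.GAL

open AlgebraicCurve ModularCurve Fermat.Agent.RED Fermat.Agent.S24

noncomputable section

variable {K : Type*} [Field K] [IsAlgClosed K] [Algebra ℚ K]
  (F₀ : IntermediateField ℚ (LaurentSeries ℚ))

omit [Algebra ℚ K] in
/-- an `m`-th root of unity in an extension field of an algebraically closed field is a constant -/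
theorem exists_const_of_pow_eq_one {E : Type*} [Field E] [Algebra K E] {m : ℕ} (hm : m ≠ 0)
    {ζ : E} (hζ : ζ ^ m = 1) : ∃ c : K, c ≠ 0 ∧ ζ = algebraMap K E c := by
  have hint : IsIntegral K ζ := by
    refine ⟨Polynomial.X ^ m - 1, Polynomial.monic_X_pow_sub_C (1 : K) hm, ?_⟩
    simp [hζ]
  obtain ⟨c, hc⟩ := minpoly.mem_range_of_degree_eq_one K ζ
    (IsAlgClosed.degree_eq_one_of_irreducible K (minpoly.irreducible hint))
  refine ⟨c, ?_, hc.symm⟩
  rintro rfl
  rw [map_zero] at hc
  rw [← hc, zero_pow hm] at hζ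
  exact zero_ne_one hζ

/-- the divisor `⌊div f / m⌋ + M (j)_∞` -/
def vDiv {F : Type*} [Field F] [Algebra K F] (jj f : F) (m : ℕ) (M : ℤ) : Divisor K F :=
  (dv K f).mapRange (fun a => a / (m : ℤ)) (Int.zero_ediv _)
    + M • (dv K jj).mapRange (fun a => max 0 (-a)) (by simp)

omit [IsAlgClosed K] [Algebra ℚ K] in
theorem vDiv_apply {F : Type*} [Field F] [Algebra K F] {jj : F} (hjj : IsSepParam K jj) (f : F)
    (m : ℕ) (M : ℤ) (v : Place K F) :
    vDiv jj f m M v = v.ord f / (m : ℤ) + M * max 0 (-(v.ord jj)) := by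
  rw [vDiv, Finsupp.add_apply, Finsupp.smul_apply, Finsupp.mapRange_apply, Finsupp.mapRange_apply,
    hjj.dv_apply, hjj.dv_apply, smul_eq_mul]

/-- multiplication by `y` on `F ⊆ K((q))` -/
def mulY (y : LaurentSeries K) : laurentBaseChange K F₀ →ₗ[K] LaurentSeries K where
  toFun w := y * (w : LaurentSeries K)
  map_add' a b := by
    show y * ((a : LaurentSeries K) + (b : LaurentSeries K)) = _
    rw [mul_add]
  map_smul' c a := by
    rw [RingHom.id_apply, Algebra.smul_def, ← HahnSeries.single_zero_mul_eq_smul]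
    show y * (algebraMap K (LaurentSeries K) c * (a : LaurentSeries K)) = _
    rw [mul_left_comm, algebraMap_laurentSeries_eq_single]

omit [IsAlgClosed K] in
@[simp] theorem mulY_apply (y : LaurentSeries K) (w : laurentBaseChange K F₀) :
    mulY F₀ y w = y * (w : LaurentSeries K) := rfl

/-- **K1a-3**. -/
theorem exists_vspace (jj : laurentBaseChange K F₀) (hjj : IsFiniteParam K jj)
    (hfix : ∀ σ : K ≃ₐ[ℚ] K, arithmeticGalois F₀ σ • jj = jj)
    (m : ℕ) (hm : m ≠ 0) (f : laurentBaseChange K F₀) (hf : f ≠ 0) (y : LaurentSeries K)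
    (hy : y ^ m = (f : LaurentSeries K))
    (hpole : ∀ v : Place K (laurentBaseChange K F₀), 0 ≤ v.ord jj → 0 ≤ v.ord f) :
    ∃ V : Submodule K (LaurentSeries K), FiniteDimensional K V ∧ y ∈ V ∧
      (∀ z ∈ V, ∃ w : laurentBaseChange K F₀, z = y * (w : LaurentSeries K)) ∧
      ∀ σ : K ≃ₐ[ℚ] K,
        (∃ w : laurentBaseChange K F₀, w ≠ 0 ∧ arithmeticGalois F₀ σ • f = f * w ^ m) →
        ∀ z ∈ V, coeffMap (σ : K →+* K) z ∈ V := by
  classical
  have hchar : CharZero K := algebraRat.charZero K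
  have hs : IsSepParam K jj := IsSepParam.of_charZero hjj
  have hmpos : (0 : ℤ) < (m : ℤ) := by exact_mod_cast Nat.pos_of_ne_zero hm
  have hy0 : y ≠ 0 := by
    rintro rfl
    rw [zero_pow hm] at hy
    exact hf (Subtype.ext hy.symm)
  -- the bound `M`
  set M : ℤ := ∑ v ∈ (dv K f).support, |dv K f v| with hM
  have hMle : ∀ v : Place K (laurentBaseChange K F₀), |v.ord f| ≤ M := by
    intro v
    by_cases hv : v ∈ (dv K f).support
    · have := Finset.single_le_sum (f := fun v => |dv K f v|) (fun i _ => abs_nonneg _) hv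
      rw [hM]
      simpa only [hs.dv_apply] using this
    · rw [Finsupp.notMem_support_iff, hs.dv_apply] at hv
      rw [hv, abs_zero]
      exact Finset.sum_nonneg fun i _ => abs_nonneg _
  set D : Divisor K (laurentBaseChange K F₀) := vDiv jj f m M with hD
  have hDv : ∀ v, D v = v.ord f / (m : ℤ) + M * max 0 (-(v.ord jj)) := vDiv_apply hs f m M
  have hfin : Module.Finite K (riemannRochSpace D) := hs.finite_L D
  refine ⟨(riemannRochSpace D).map (mulY F₀ y), inferInstance, ⟨1, ?_, by simp⟩, ?_, ?_⟩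
  · -- `1 ∈ L(D)`
    show (1 : laurentBaseChange K F₀) ∈ riemannRochSpace D
    rw [mem_L_iff_of_ne_zero one_ne_zero]
    intro v
    rw [Place.ord_one, zero_add, hDv]
    have hM0 : 0 ≤ M := (abs_nonneg _).trans (hMle v)
    rcases le_or_gt 0 (v.ord jj) with h | h
    · have h1 := Int.ediv_nonneg (hpole v h) hmpos.le
      have h2 : 0 ≤ M * max 0 (-(v.ord jj)) := mul_nonneg hM0 (le_max_left _ _)
      omega
    · have h1 : (1 : ℤ) ≤ max 0 (-(v.ord jj)) := le_max_of_le_right (by omega)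
      have h2 : M * 1 ≤ M * max 0 (-(v.ord jj)) := mul_le_mul_of_nonneg_left h1 hM0
      have h3 : -M ≤ v.ord f / (m : ℤ) := by
        rw [Int.le_ediv_iff_mul_le hmpos]
        have h4 := hMle v
        have h5 : -|v.ord f| ≤ v.ord f := neg_abs_le _
        have h6 : M * 1 ≤ M * (m : ℤ) := mul_le_mul_of_nonneg_left (by omega) hM0
        nlinarith
      omega
  · rintro _ ⟨w, _, rfl⟩
    exact ⟨w, rfl⟩
  · rintro σ ⟨wσ, hwσ0, hwσ⟩ _ ⟨w, hw, rfl⟩
    set g := arithmeticGalois F₀ σ with hg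
    -- the root of unity
    have hwσ' : coeffMap (σ : K →+* K) (f : LaurentSeries K)
        = (f : LaurentSeries K) * (wσ : LaurentSeries K) ^ m := by
      exact congrArg (Subtype.val) hwσ
    have hwσne : (wσ : LaurentSeries K) ≠ 0 := fun h => hwσ0 (Subtype.ext h)
    have hden : y * (wσ : LaurentSeries K) ≠ 0 := mul_ne_zero hy0 hwσne
    have hζ : (coeffMap (σ : K →+* K) y / (y * (wσ : LaurentSeries K))) ^ m = 1 := by
      rw [div_pow, ← map_pow, hy, hwσ', mul_pow, hy]
      exact div_self (mul_ne_zero (fun h => hf (Subtype.ext h)) (pow_ne_zero _ hwσne))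
    obtain ⟨c, hc0, hc⟩ := exists_const_of_pow_eq_one (K := K) hm hζ
    have hσy : coeffMap (σ : K →+* K) y
        = algebraMap K (LaurentSeries K) c * (y * (wσ : LaurentSeries K)) := by
      rw [← hc, div_mul_cancel₀ _ hden]
    refine ⟨algebraMap K (laurentBaseChange K F₀) c * wσ * (g • w), ?_, ?_⟩
    · show algebraMap K (laurentBaseChange K F₀) c * wσ * (g • w) ∈ riemannRochSpace D
      rcases eq_or_ne w 0 with rfl | hw0
      · rw [smul_zero, mul_zero]
        exact zero_mem _
      have hgw0 : g • w ≠ 0 := by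
        rw [Ne, smul_eq_zero_iff_eq]
        exact hw0
      have hc0' : algebraMap K (laurentBaseChange K F₀) c ≠ 0 := by
        rwa [Ne, map_eq_zero]
      rw [mem_L_iff_of_ne_zero (mul_ne_zero (mul_ne_zero hc0' hwσ0) hgw0)]
      rw [SetLike.mem_coe, mem_L_iff_of_ne_zero hw0] at hw
      intro v
      have key : ∀ x : laurentBaseChange K F₀, v.ord (g • x) = (g⁻¹ • v).ord x := by
        intro x
        have := SemilinearAut.ord_smul g (g⁻¹ • v) x
        rwa [smul_inv_smul] at this
      have h1 := hw (g⁻¹ • v)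
      have hfixg : g • jj = jj := hfix σ
      rw [hDv, ← key w, ← key f, ← key jj, hfixg, hwσ, Place.ord_mul _ hf (pow_ne_zero _ hwσ0), ← zpow_natCast,
        Place.ord_zpow, Int.add_mul_ediv_left _ _ hmpos.ne'] at h1
      rw [Place.ord_mul _ (mul_ne_zero hc0' hwσ0) hgw0, Place.ord_mul _ hc0' hwσ0,
        Place.ord_algebraMap, hDv]
      linarith
    · rw [mulY_apply, mulY_apply, map_mul, hσy]
      show y * (algebraMap K (LaurentSeries K) c * (wσ : LaurentSeries K)
        * coeffMap (σ : K →+* K) (w : LaurentSeries K)) = _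
      ring

/-- **K1a-3 + D2**: a nonzero multiple `y * w`, `w ∈ F`, fixed by the stabiliser of the class of
`f` modulo `m`-th powers. -/
theorem exists_fixed_multiple (jj : laurentBaseChange K F₀) (hjj : IsFiniteParam K jj)
    (hfix : ∀ σ : K ≃ₐ[ℚ] K, arithmeticGalois F₀ σ • jj = jj)
    (m : ℕ) (hm : m ≠ 0) (f : laurentBaseChange K F₀) (hf : f ≠ 0) (y : LaurentSeries K)
    (hy : y ^ m = (f : LaurentSeries K))
    (hpole : ∀ v : Place K (laurentBaseChange K F₀), 0 ≤ v.ord jj → 0 ≤ v.ord f) :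
    ∃ w : laurentBaseChange K F₀, w ≠ 0 ∧ ∀ σ : K ≃ₐ[ℚ] K,
      (∃ w' : laurentBaseChange K F₀, w' ≠ 0 ∧ arithmeticGalois F₀ σ • f = f * w' ^ m) →
        coeffMap (σ : K →+* K) (y * (w : LaurentSeries K)) = y * (w : LaurentSeries K) := by
  obtain ⟨V, hfin, hyV, hVF, hstab⟩ := exists_vspace F₀ jj hjj hfix m hm f hf y hy hpole
  have hy0 : y ≠ 0 := by
    rintro rfl
    rw [zero_pow hm] at hy
    exact hf (Subtype.ext hy.symm)
  have hV : V ≠ ⊥ := fun h => hy0 (by rwa [h, Submodule.mem_bot] at hyV)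
  obtain ⟨z, hz, hz0, hzfix⟩ := Descent.exists_fixed_series V hV
    {τ : K →+* K | ∃ σ : K ≃ₐ[ℚ] K, τ = (σ : K →+* K) ∧
      ∃ w' : laurentBaseChange K F₀, w' ≠ 0 ∧ arithmeticGalois F₀ σ • f = f * w' ^ m}
    (by
      rintro _ ⟨σ, rfl, hσ⟩ v hv
      exact hstab σ hσ v hv)
  obtain ⟨w, rfl⟩ := hVF z hz
  refine ⟨w, ?_, fun σ hσ => hzfix _ ⟨σ, rfl, hσ⟩⟩
  rintro rfl
  exact hz0 (by simp)

end

end Fermat.Agent.GAL
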