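import Fermat.Agent.GAL.Sup.K1b
import Fermat.Agent.GAL.Sup.K2ab
import Fermat.Agent.GAL.Sup.EisField
import Fermat.Agent.GAL.Sup.VSpace
import Fermat.Agent.GAL.AD.Kappa
import Fermat.Agent.GAL.DescentOrbit
import Fermat.Agent.GAL.DescentBaseChange

/-! # SUPPORT chain, leaf K1a: descent from `ℂ` to `Qbar` -/

set_option autoImplicit false

namespace Fermat.Agent.GAL

open Fermat.Agent.S24 CongruenceSubgroup ModularCurve AlgebraicCurve UpperHalfPlane WithZero
open scoped MatrixGroups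

/-- every complex number algebraic over `ℚ` is in the image of `Qbar` -/
theorem exists_iotaK_eq (x : ℂ) (hx : IsAlgebraic ℚ x) : ∃ a : Kb, iotaK a = x := by
  have h1 : IsAlgClosed iotaK.fieldRange :=
    IsAlgClosed.of_ringEquiv Kb iotaK.fieldRange (AlgEquiv.ofInjectiveField iotaK).toRingEquiv
  have h2 : IsAlgebraic iotaK.fieldRange x := hx.tower_top _
  have h3 : IsIntegral iotaK.fieldRange x := h2.isIntegral
  obtain ⟨y, hy⟩ := minpoly.mem_range_of_degree_eq_one iotaK.fieldRange x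
    (IsAlgClosed.degree_eq_one_of_irreducible _ (minpoly.irreducible h3))
  obtain ⟨a, ha⟩ := y.2
  exact ⟨a, by rw [← hy]; exact ha⟩

/-- a Laurent series with algebraic coefficients comes from `Qbar((q))` -/
theorem exists_coeffMap_iotaK_eq (z : LaurentSeries ℂ) (hz : ∀ n, IsAlgebraic ℚ (z.coeff n)) :
    ∃ z0 : LaurentSeries Kb, coeffMap iotaK.toRingHom z0 = z := by
  choose a ha using fun n => exists_iotaK_eq (z.coeff n) (hz n)
  have hsupp : Function.support a ⊆ z.support := by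
    intro n hn
    rw [HahnSeries.mem_support, ← ha n]
    intro h0
    exact hn ((map_eq_zero iotaK).mp h0)
  refine ⟨⟨a, z.isPWO_support.mono hsupp⟩, ?_⟩
  ext n
  rw [coeffMap_coeff]
  exact ha n

theorem HasChar.mul_thetaK {N : ℕ} {χ : Gamma0 N →* ℂˣ} {h : Mer} (hh : HasChar N χ h)
    (w : AD.FK ℂ N) : HasChar N χ (h * AD.thetaK (RingHom.id ℂ) N w) := by
  intro g
  rw [map_mul, hh g, AD.actMer_thetaK (RingHom.id ℂ) g.2, mul_assoc]

/-- **K1a (DescentMain)** -/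
theorem exists_root_over_Kb' (N m : ℕ) [NeZero N] [NeZero m] (χ : Gamma0 N →* ℂˣ)
    (hχ : ∀ g, χ g ^ m = 1) (hgood : IsGoodChar χ) :
    ∃ (u : FN N) (h : Mer), u ≠ 0 ∧ ThetaMer N u = h ^ m ∧ HasChar N χ h := by
  have hm : m ≠ 0 := NeZero.ne m
  obtain ⟨h0, U, f, hh0, hf, hchar, hU, hθ, hfU⟩ := exists_eis_root N m χ hχ hgood
  set h0M : Mer := algebraMap Hol Mer h0 with hh0M
  set y : LaurentSeries ℂ := toLaurent 1 U with hy
  -- invariance under small elements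
  have hsmall : ∀ γ : Gamma0 N, IsSmall γ → actMer (γ : SL(2, ℤ)) h0M = h0M := by
    intro γ hγ
    rw [hchar γ, hgood γ hγ]
    simp
  -- divisibility of the divisor over `ℂ`
  have hdiv : ∀ v : Place ℂ (AD.FK ℂ N), (m : ℤ) ∣ v.ord f := by
    intro v
    refine AD.dvd_ord_of_root N (RingHom.id ℂ) hm f hf h0M hθ.symm ?_ ?_ v
    · intro γ hγ τ hτ
      exact hsmall ⟨γ, hγ⟩ (abs_trace_le_two_of_smul_eq γ τ hτ)
    · intro γ hγ g n hγg
      refine hsmall ⟨γ, hγ⟩ ?_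
      show |γ 0 0 + γ 1 1| ≤ 2
      rw [hγg, trace_conj_T_inv_pow]
      norm_num
  -- no finite poles
  have hj0 : AD.jK1 ℂ N ≠ 0 := fun h0 => AD.transcendental_jK1 ℂ N (h0 ▸ isAlgebraic_zero)
  have hpole : ∀ v : Place ℂ (AD.FK ℂ N), 0 ≤ v.ord (AD.jK1 ℂ N) → 0 ≤ v.ord f := by
    intro v hv
    obtain ⟨τ, k, hk, h1, -⟩ := AD.exists_point_of_place (RingHom.id ℂ) N v
      ((Place.mem_iff_ord_nonneg v hj0).2 hv)
    have h2 := h1 f hf
    rw [hθ, hh0M, ← map_pow, merVal_algebraMap] at h2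
    have h3 := holVal_le_one τ (h0 ^ m)
    rw [h2, ← exp_zero, exp_le_exp] at h3
    have hk' : (0 : ℤ) < k := by exact_mod_cast hk
    by_contra hneg
    push Not at hneg
    nlinarith
  -- the stabiliser
  obtain ⟨H, hH, hHf⟩ := AD.exists_finiteIndex_stab N m f hf hdiv
  -- a fixed multiple
  have hfix : ∀ σ : ℂ ≃ₐ[ℚ] ℂ,
      arithmeticGalois (modularFunctionFieldFull N) σ • AD.jK1 ℂ N = AD.jK1 ℂ N := by
    intro σ
    apply Subtype.ext
    rw [coe_arithmeticGalois_smul]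
    exact S24.coeffMap_jqNModC _ 1
  obtain ⟨w, hw, hwfix⟩ := exists_fixed_multiple (modularFunctionFieldFull N) (AD.jK1 ℂ N)
    (AD.isFiniteParam_jK1 (RingHom.id ℂ) N) hfix m hm f hf y hfU.symm hpole
  set z : LaurentSeries ℂ := y * (w : LaurentSeries ℂ) with hz
  have hzalg : ∀ n, IsAlgebraic ℚ (z.coeff n) := by
    intro n
    refine Descent.isAlgebraic_of_fixed H _ fun σ hσ => ?_
    have h1 := congrArg (fun s : LaurentSeries ℂ => s.coeff n) (hwfix σ (hHf σ hσ))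
    simpa [coeffMap_coeff] using h1
  obtain ⟨z0, hz0⟩ := exists_coeffMap_iotaK_eq z hzalg
  -- `z ^ m = f * w ^ m`
  have hzm : z ^ m = ((f * w ^ m : AD.FK ℂ N) : LaurentSeries ℂ) := by
    rw [hz, mul_pow, ← hfU]
    rfl
  have hmem : z0 ^ m ∈ AD.FKf Kb N := by
    apply Descent.mem_laurentBaseChange_of_coeffMap_mem iotaK.toRingHom
    rw [map_pow, hz0, hzm]
    exact (f * w ^ m : AD.FK ℂ N).2
  set u : FN N := ⟨z0 ^ m, hmem⟩ with hu
  have hθu : ThetaMer N u = AD.thetaK (RingHom.id ℂ) N (f * w ^ m) := by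
    rw [← thetaK_iotaK, AD.thetaK_apply, AD.thetaK_apply]
    congr 1
    rw [AD.thetaPer_eq_iff, AD.toLaurent_thetaPer, coeffMap_id, ← hzm, ← hz0, ← map_pow]
  refine ⟨u, h0M * AD.thetaK (RingHom.id ℂ) N w, ?_, ?_, hchar.mul_thetaK w⟩
  · intro h0
    have h1 : ThetaMer N u = 0 := by rw [h0, map_zero]
    rw [hθu, map_eq_zero] at h1
    exact mul_ne_zero hf (pow_ne_zero _ hw) h1
  · rw [hθu, map_mul, map_pow, hθ, mul_pow]

end Fermat.Agent.GAL
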