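import Fermat.Agent.GAL.Sup.Defs
import Fermat.Agent.GAL.AD.Criterion

/-! # SUPPORT chain, leaf K1b: the divisor of `u` is divisible by `m` (from `AD.dvd_ord_of_root`) -/

set_option autoImplicit false

namespace Fermat.Agent.GAL

open Fermat.Agent.S24 CongruenceSubgroup ModularCurve AlgebraicCurve UpperHalfPlane
open scoped MatrixGroups

/-- the analytic embedding of `AD` over `Qbar` is the one of `S24` -/
theorem thetaK_iotaK (N : ℕ) : AD.thetaK iotaK.toRingHom N = ThetaMer N := by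
  apply AD.ringHom_ext_fk
  · intro a
    rw [AD.thetaK_algebraMap]
    exact (ThetaMer_algebraMap N a).symm
  · intro d _ hd
    rw [AD.thetaK_jK]
    have e : AD.jK Kb N d hd = jBar N d hd := Subtype.ext (by rw [AD.coe_jK, coe_jBar])
    rw [e]
    exact (ThetaMer_jBar N d hd).symm

/-- an element of `SL(2, ℤ)` with a fixed point in the upper half plane has `|trace| ≤ 2` -/
theorem abs_trace_le_two_of_smul_eq (γ : SL(2, ℤ)) (τ : ℍ) (h : γ • τ = τ) :
    |γ 0 0 + γ 1 1| ≤ 2 := by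
  have h1 := congrArg (fun z : ℍ => (z : ℂ)) h
  simp only [coe_specialLinearGroup_apply] at h1
  have hden : ((algebraMap ℤ ℝ (γ 1 0) : ℝ) : ℂ) * τ + ((algebraMap ℤ ℝ (γ 1 1) : ℝ) : ℂ) ≠ 0 := by
    have := denom_ne_zero (Matrix.SpecialLinearGroup.mapGL ℝ γ) τ
    simpa [denom] using this
  rw [div_eq_iff hden] at h1
  set a : ℝ := algebraMap ℤ ℝ (γ 0 0) with ha
  set b : ℝ := algebraMap ℤ ℝ (γ 0 1) with hb
  set c : ℝ := algebraMap ℤ ℝ (γ 1 0) with hc
  set d : ℝ := algebraMap ℤ ℝ (γ 1 1) with hd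
  have hdet : a * d - b * c = 1 := by
    have := γ.det_coe
    rw [Matrix.det_fin_two] at this
    have h2 := congrArg (fun n : ℤ => (n : ℝ)) this
    simpa [ha, hb, hc, hd] using h2
  have hy : 0 < τ.im := τ.im_pos
  have hre := congrArg Complex.re h1
  have him := congrArg Complex.im h1
  simp only [Complex.add_re, Complex.mul_re, Complex.ofReal_re, Complex.ofReal_im, zero_mul,
    sub_zero, Complex.add_im, Complex.mul_im, add_zero, coe_re, coe_im] at hre him
  set x : ℝ := τ.re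
  set y : ℝ := τ.im
  have h3 : a - d = 2 * c * x := by
    have : y * (a - d - 2 * c * x) = 0 := by linear_combination him
    rcases mul_eq_zero.mp this with h0 | h0
    · exact absurd h0 hy.ne'
    · linarith
  have h4 : (a + d) ^ 2 = 4 - 4 * c ^ 2 * y ^ 2 := by
    have hb' : b = x * (c * x + d) - y * (c * y) - a * x := by linarith
    have : (a + d) ^ 2 = (a - d) ^ 2 + 4 * (1 + b * c) := by linear_combination 4 * hdet
    rw [this, hb', h3]
    have had : a = d + 2 * c * x := by linarith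
    rw [had]
    ring
  have h5 : (a + d) ^ 2 ≤ 2 ^ 2 := by
    rw [h4]
    nlinarith [sq_nonneg (c * y)]
  have h6 : |a + d| ≤ 2 := abs_le_of_sq_le_sq h5 (by norm_num)
  have h7 : ((|γ 0 0 + γ 1 1| : ℤ) : ℝ) ≤ 2 := by
    rw [Int.cast_abs, Int.cast_add]
    simpa [ha, hd] using h6
  exact_mod_cast h7

theorem trace_conj_T_inv_pow (g : SL(2, ℤ)) (n : ℕ) :
    (g⁻¹ * ModularGroup.T⁻¹ ^ n * g) 0 0 + (g⁻¹ * ModularGroup.T⁻¹ ^ n * g) 1 1 = 2 := by
  have hT : ((ModularGroup.T⁻¹ ^ n : SL(2, ℤ)) : Matrix (Fin 2) (Fin 2) ℤ) = !![1, -(n : ℤ); 0, 1] := by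
    rw [inv_pow, ← zpow_natCast, ← zpow_neg, ModularGroup.coe_T_zpow]
  have hdet := g.det_coe
  rw [Matrix.det_fin_two] at hdet
  simp only [Matrix.SpecialLinearGroup.coe_mul, hT, Matrix.SpecialLinearGroup.coe_inv,
    Matrix.adjugate_fin_two, Matrix.mul_apply, Fin.sum_univ_two, Matrix.of_apply,
    Matrix.cons_val_zero, Matrix.cons_val_one, Matrix.cons_val', Matrix.cons_val_fin_one]
  linear_combination 2 * hdet

/-- **K1b**: the divisor of `u` is divisible by `m`. -/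
theorem dvd_ord_of_root' (N m : ℕ) [NeZero N] [NeZero m] (χ : Gamma0 N →* ℂˣ)
    (hgood : IsGoodChar χ) (u : FN N) (h : Mer) (hu : u ≠ 0) (huh : ThetaMer N u = h ^ m)
    (hh : HasChar N χ h) (v : Place Kb (FN N)) : (m : ℤ) ∣ v.ord u := by
  have hsmall : ∀ γ : Gamma0 N, IsSmall γ → actMer (γ : SL(2, ℤ)) h = h := by
    intro γ hγ
    rw [hh γ, hgood γ hγ]
    simp
  refine AD.dvd_ord_of_root N iotaK.toRingHom (NeZero.ne m) u hu h ?_ ?_ ?_ v
  · rw [thetaK_iotaK, huh]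
  · intro γ hγ τ hτ
    exact hsmall ⟨γ, hγ⟩ (abs_trace_le_two_of_smul_eq γ τ hτ)
  · intro γ hγ g n hγg
    refine hsmall ⟨γ, hγ⟩ ?_
    show |γ 0 0 + γ 1 1| ≤ 2
    rw [hγg, trace_conj_T_inv_pow]
    norm_num

end Fermat.Agent.GAL
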