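import Fermat.Agent.RED.QEP0
import Fermat.Agent.GAL.AD.Degree

/-!
# The `q`-expansion principle over a general constant field `K ⊆ ℂ`

A holomorphic `Γ₀(N)`-invariant function of moderate growth at all cusps whose `q`-expansion has
coefficients in `K` is (the image of) an element of the function field `FK K N`.
-/

set_option autoImplicit false

namespace Fermat.Agent.GAL

open Fermat.Agent.S24 Fermat.Agent.RED ModularCurve IntermediateField CongruenceSubgroup
open scoped MatrixGroups

noncomputable section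

variable {K : Type*} [Field K] [Algebra ℚ K] (ι : K →+* ℂ) (N : ℕ) [NeZero N]

set_option synthInstance.maxHeartbeats 400000 in
/-- **`q`-expansion principle over `K`.** -/
theorem mem_FKf_of_mem_RN (h : Hol) (hh : h ∈ CPAlt.RN N) (u : MerPer 1)
    (hu : toMer 1 u = algebraMap Hol Mer h) (s : LaurentSeries K)
    (hs : toLaurent 1 u = coeffMap ι s) : s ∈ AD.FKf K N := by
  classical
  obtain ⟨hfd, hdeg⟩ := AD.degreeK ι N
  let S : Finset Mer :=
    insert (algebraMap Hol Mer h) ((AD.finite_genSetFK K N).toFinset.image (AD.thetaK ι N))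
  have hS : Algebra.adjoin ℂ (S : Set Mer) ≤ (CPAlt.RN N).map (IsScalarTower.toAlgHom ℂ Hol Mer) := by
    rw [Algebra.adjoin_le_iff]
    intro z hz
    simp only [S, Finset.coe_insert, Finset.coe_image, Set.Finite.coe_toFinset,
      Set.mem_insert_iff, Set.mem_image] at hz
    rcases hz with rfl | ⟨_, ⟨d, hd0, hd, rfl⟩, rfl⟩
    · exact ⟨h, hh, rfl⟩
    · exact ⟨jdHol d, CPAlt.jdHol_mem_RN hd, (AD.thetaK_jK ι N d hd).symm⟩
  have hJ : toMerAlg (AD.thetaPer ι N (AD.jK1 K N)) = algebraMap Hol Mer (jdHol 1) :=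
    AD.thetaK_jK1 ι N
  obtain ⟨f, hf⟩ := mem_of_conjugates (AD.FKf K N).val (AD.jK1 K N) ι
    toMerAlg toLaurentAlg (AD.transcendental_jK1 K N) (AD.thetaPer ι N)
    (fun f => AD.toLaurent_thetaPer ι N f) S
    (fun x : XN N => (actMer (Quotient.out x)).toAlgHom)
    ((1 : SL(2, ℤ)) : XN N)
    (by
      intro θ hθ
      obtain ⟨f, hf, rfl⟩ := hS hθ
      obtain ⟨γ, hγ⟩ := QuotientGroup.mk_out_eq_mul (Gamma0 N) (1 : SL(2, ℤ))
      show actMer (Quotient.out ((1 : SL(2, ℤ)) : XN N)) (algebraMap Hol Mer f) = algebraMap Hol Mer f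
      rw [actMer_algebraMap, hγ, one_mul, hf.1 γ γ.2])
    (by
      intro θ hθ i
      obtain ⟨f, hf, rfl⟩ := hS hθ
      rw [hJ]
      exact charpoly_coeff_of_mem_RN N hf i)
    (by rw [hdeg, Nat.card_eq_fintype_card])
    (by
      intro f
      rw [hJ]
      show AD.thetaK ι N f ∈ (IntermediateField.adjoin ℂ⟮algebraMap Hol Mer (jdHol 1)⟯
        (S : Set Mer)).toSubfield
      apply AD.map_mem_of_gen
      · intro a
        show AD.thetaK ι N (algebraMap K (AD.FK K N) a) ∈ IntermediateField.adjoin _ (S : Set Mer)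
        rw [AD.thetaK_algebraMap,
          IsScalarTower.algebraMap_apply ℂ ℂ⟮algebraMap Hol Mer (jdHol 1)⟯ Mer]
        exact IntermediateField.algebraMap_mem _ _
      · intro d _ hd
        show AD.thetaK ι N (AD.jK K N d hd) ∈ IntermediateField.adjoin _ (S : Set Mer)
        apply IntermediateField.subset_adjoin
        simp only [S, Finset.coe_insert, Finset.coe_image, Set.Finite.coe_toFinset]
        exact Or.inr ⟨AD.jK K N d hd, ⟨d, ‹_›, hd, rfl⟩, rfl⟩)
    u (by rw [toMerAlg_apply, hu]; simp [S]) s hs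
  rw [← hf]
  exact f.2

/-- The element of `FK K N` attached to a function in `RN N` with `K`-rational `q`-expansion. -/
theorem thetaK_eq_of_mem_RN (h : Hol) (hh : h ∈ CPAlt.RN N) (u : MerPer 1)
    (hu : toMer 1 u = algebraMap Hol Mer h) (s : LaurentSeries K)
    (hs : toLaurent 1 u = coeffMap ι s) :
    AD.thetaK ι N ⟨s, mem_FKf_of_mem_RN ι N h hh u hu s hs⟩ = algebraMap Hol Mer h := by
  rw [← hu, AD.thetaK_apply]
  congr 1
  rw [AD.thetaPer_eq_iff]
  exact hs.symm

end

end Fermat.Agent.GAL
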