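import Fermat.Agent.GAL.Sup.Defs

/-! # Small elements of `Γ₀(N)` are parabolic, or of finite order -/

set_option autoImplicit false

namespace Fermat.Agent.GAL

open CongruenceSubgroup
open scoped MatrixGroups

theorem sl2_sq (g : SL(2, ℤ)) :
    (g : Matrix (Fin 2) (Fin 2) ℤ) ^ 2 =
      (g 0 0 + g 1 1) • (g : Matrix (Fin 2) (Fin 2) ℤ) - 1 := by
  have hdet := g.det_coe
  rw [Matrix.det_fin_two] at hdet
  ext i j
  fin_cases i <;> fin_cases j <;>
    simp only [pow_two, Matrix.mul_apply, Fin.sum_univ_two, Matrix.sub_apply, Matrix.smul_apply,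
      smul_eq_mul, Fin.zero_eta, Fin.isValue, Fin.mk_one, Matrix.one_apply_eq, ne_eq, zero_ne_one,
      one_ne_zero, not_false_eq_true, Matrix.one_apply_ne]
  · linear_combination -hdet
  · ring
  · ring
  · linear_combination -hdet

/-- a small element has trace `± 2` or is of finite order dividing `12` -/
theorem IsSmall.trace_sq_or_pow {N : ℕ} {γ : Gamma0 N} (h : IsSmall γ) :
    ((γ : SL(2, ℤ)) 0 0 + (γ : SL(2, ℤ)) 1 1) ^ 2 = 4 ∨ γ ^ 12 = 1 := by
  set g : SL(2, ℤ) := (γ : SL(2, ℤ)) with hg
  set t : ℤ := g 0 0 + g 1 1 with ht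
  have hsq := sl2_sq g
  rw [← ht] at hsq
  have habs : |t| ≤ 2 := h
  rw [abs_le] at habs
  have hcases : t = -2 ∨ t = -1 ∨ t = 0 ∨ t = 1 ∨ t = 2 := by omega
  have key : ∀ M : Matrix (Fin 2) (Fin 2) ℤ, (t = -1 ∨ t = 0 ∨ t = 1) → M ^ 2 = t • M - 1 →
      M ^ 12 = 1 := by
    intro M ht' hM
    rcases ht' with h1 | h1 | h1
    · rw [h1] at hM
      have h3 : M ^ 3 = 1 := by
        rw [pow_succ, hM]
        simp only [neg_smul, one_smul, sub_mul, neg_mul, one_mul]
        rw [← pow_two, hM]
        simp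
      rw [show 12 = 3 * 4 from rfl, pow_mul, h3, one_pow]
    · rw [h1] at hM
      have h2 : M ^ 2 = -1 := by simpa using hM
      rw [show 12 = 2 * 6 from rfl, pow_mul, h2]
      exact Even.neg_one_pow (by decide)
    · rw [h1] at hM
      have h3 : M ^ 3 = -1 := by
        rw [pow_succ, hM]
        simp only [one_smul, sub_mul, one_mul]
        rw [← pow_two, hM]
        simp
      rw [show 12 = 3 * 4 from rfl, pow_mul, h3]
      exact Even.neg_one_pow (by decide)
  rcases hcases with h1 | h1 | h1 | h1 | h1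
  · left; rw [h1]; norm_num
  · right
    apply Subtype.ext
    apply Subtype.ext
    simpa using key g (Or.inl h1) hsq
  · right
    apply Subtype.ext
    apply Subtype.ext
    simpa using key g (Or.inr (Or.inl h1)) hsq
  · right
    apply Subtype.ext
    apply Subtype.ext
    simpa using key g (Or.inr (Or.inr h1)) hsq
  · left; rw [h1]; norm_num

end Fermat.Agent.GAL
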